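import Fermat.Agent.CFT.Kum.NormFrom

/-!
# Characters, cup products and Kummer characters as elements of groups

* `Xp 𝓛 p` : level-constant characters `G → ZMod p` (an additive group);
* `triv p G` : the trivial representation on `ZMod p`;
* `cupX : Xp 𝓛 p →+ Xp 𝓛 p →+ H2 𝓛 (triv p G)`;
* `kumF K hF : Fˣ →* Multiplicative (Xp 𝓛 p)` : the Kummer map for `K : KumSet 𝓛 Ω p` and
  `F = Ω^G` (`hF : IsFixed G F`), surjective with kernel the `p`-th powers;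
* naturality (`pull`), `cup_kumF_eq_zero_iff` (norms).
-/

set_option autoImplicit false

open Fermat.Agent.PT Fermat.Agent.CFT.Kum Fermat.Agent.CFT.Kum.KumSet

namespace Fermat.Agent.CFT.Bridge

section Char

variable {G : Type*} [Group G] (𝓛 : LevelSys G) (p : ℕ)

/-- Level-constant characters `G → ZMod p`. -/
def Xp : AddSubgroup (G → ZMod p) where
  carrier := {f | LC1 𝓛 f ∧ ∀ g h, f (g * h) = f g + f h}
  zero_mem' := ⟨LC1.const 0, fun g h => by simp⟩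
  add_mem' {f f'} hf hf' := ⟨(hf.1.prodMk hf'.1).comp (fun p => p.1 + p.2), fun g h => by
    simp only [Pi.add_apply, hf.2, hf'.2]; abel⟩
  neg_mem' {f} hf := ⟨hf.1.comp (fun x => -x), fun g h => by
    simp only [Pi.neg_apply, hf.2]; abel⟩

variable {𝓛 p}

lemma mem_Xp {f : G → ZMod p} : f ∈ Xp 𝓛 p ↔ LC1 𝓛 f ∧ ∀ g h, f (g * h) = f g + f h := Iff.rfl

lemma Xp_mul (χ : Xp 𝓛 p) (g h : G) : χ.1 (g * h) = χ.1 g + χ.1 h := χ.2.2 g h

lemma Xp_one (χ : Xp 𝓛 p) : χ.1 1 = 0 := by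
  have h := Xp_mul χ 1 1
  rwa [one_mul, left_eq_add] at h

lemma Xp_inv (χ : Xp 𝓛 p) (g : G) : χ.1 g⁻¹ = - χ.1 g := by
  have h := Xp_mul χ g g⁻¹
  rw [mul_inv_cancel, Xp_one] at h
  exact (neg_eq_of_add_eq_zero_right h.symm).symm

/-- The homomorphism attached to a character. -/
def Xp.toHom (χ : Xp 𝓛 p) : G →* Multiplicative (ZMod p) where
  toFun g := Multiplicative.ofAdd (χ.1 g)
  map_one' := by rw [Xp_one]; rfl
  map_mul' g h := by rw [Xp_mul]; rfl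

@[simp] lemma Xp.toAdd_toHom (χ : Xp 𝓛 p) (g : G) : (Xp.toHom χ g).toAdd = χ.1 g := rfl

lemma Xp.mem_ker {χ : Xp 𝓛 p} {g : G} : g ∈ (Xp.toHom χ).ker ↔ χ.1 g = 0 := Iff.rfl

lemma Xp.ker_mem (χ : Xp 𝓛 p) : (Xp.toHom χ).ker ∈ 𝓛 := by
  obtain ⟨U, hU, h⟩ := χ.2.1
  refine LevelSys.mono hU fun g hg => ?_
  rw [Xp.mem_ker]
  have := h 1 g hg
  rwa [one_mul, Xp_one] at this

/-- The character attached to a homomorphism with kernel in `𝓛`. -/
def Xp.ofHom (f : G →* Multiplicative (ZMod p)) (hf : f.ker ∈ 𝓛) : Xp 𝓛 p :=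
  ⟨fun g => (f g).toAdd, ⟨f.ker, hf, fun g s hs => by
    beta_reduce
    rw [map_mul, MonoidHom.mem_ker.1 hs, mul_one]⟩, fun g h => by
    beta_reduce
    rw [map_mul, toAdd_mul]⟩

@[simp] lemma Xp.ofHom_apply (f : G →* Multiplicative (ZMod p)) (hf : f.ker ∈ 𝓛) (g : G) :
    (Xp.ofHom f hf).1 g = (f g).toAdd := rfl

/-- Pull back of characters. -/
def Xp.pull {H : Type*} [Group H] {𝓛' : LevelSys H} (u : H →* G) (hu : 𝓛.Compat u 𝓛') :
    Xp 𝓛 p →+ Xp 𝓛' p where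
  toFun χ := ⟨fun h => χ.1 (u h), χ.2.1.precomp hu, fun g h => by
    beta_reduce
    rw [map_mul, Xp_mul]⟩
  map_zero' := rfl
  map_add' _ _ := rfl

@[simp] lemma Xp.pull_apply {H : Type*} [Group H] {𝓛' : LevelSys H} (u : H →* G)
    (hu : 𝓛.Compat u 𝓛') (χ : Xp 𝓛 p) (h : H) : (Xp.pull u hu χ).1 h = χ.1 (u h) := rfl

/-- A nonzero character is surjective: some element has value `1` (for `p` prime). -/
lemma Xp.exists_eq_one [hp : Fact p.Prime] {χ : Xp 𝓛 p} (hχ : χ ≠ 0) :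
    ∃ s : G, χ.1 s = 1 := by
  obtain ⟨g, hg⟩ : ∃ g, χ.1 g ≠ 0 := by
    by_contra! h
    exact hχ (Subtype.ext (funext h))
  have hpow : ∀ (n : ℕ) (x : G), χ.1 (x ^ n) = n * χ.1 x := by
    intro n x
    induction n with
    | zero => simp [Xp_one]
    | succ n ih => rw [pow_succ, Xp_mul, ih]; push_cast; ring
  refine ⟨g ^ ((χ.1 g)⁻¹).val, ?_⟩
  rw [hpow, ZMod.natCast_zmod_val, inv_mul_cancel₀ hg]

lemma Xp.p_nsmul (χ : Xp 𝓛 p) : p • χ = 0 := by
  ext g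
  change p • (χ.1 g) = 0
  rw [nsmul_eq_mul, ZMod.natCast_self, zero_mul]

end Char

section Cup

variable (p : ℕ) (G : Type*) [Group G] in
/-- The trivial representation on `ZMod p`. -/
abbrev triv : Representation (ZMod p) G (ZMod p) := Representation.trivial (ZMod p) G (ZMod p)

variable {p : ℕ} [hp : Fact p.Prime] {G : Type*} [Group G] {𝓛 : LevelSys G}

/-- The cup product cocycle of two characters. -/
def cupZ2 (χ ψ : Xp 𝓛 p) : ↥(Z2 𝓛 (triv p G)) :=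
  ⟨KumSet.cup χ.1 ψ.1, KumSet.cup_lc χ.2.1 ψ.2.1, by
    intro g h j
    rw [Representation.trivial_apply]
    exact KumSet.cup_cocycle χ.2.2 ψ.2.2 g h j⟩

@[simp] lemma cupZ2_apply (χ ψ : Xp 𝓛 p) (g h : G) : (cupZ2 χ ψ).1 (g, h) = χ.1 g * ψ.1 h := rfl

/-- The cup product of two characters with values in `H2 𝓛 (triv p G)`. -/
noncomputable def cupX : Xp 𝓛 p →+ Xp 𝓛 p →+ H2 𝓛 (triv p G) :=
  AddMonoidHom.mk' (fun χ => AddMonoidHom.mk' (fun ψ => H2mk 𝓛 (triv p G) (cupZ2 χ ψ)) (by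
    intro ψ ψ'
    rw [← map_add]
    congr 1
    ext ⟨g, h⟩
    change χ.1 g * (ψ.1 h + ψ'.1 h) = χ.1 g * ψ.1 h + χ.1 g * ψ'.1 h
    ring)) (by
    intro χ χ'
    ext ψ
    change H2mk 𝓛 (triv p G) _ = H2mk 𝓛 (triv p G) _ + H2mk 𝓛 (triv p G) _
    rw [← map_add]
    congr 1
    ext ⟨g, h⟩
    change (χ.1 g + χ'.1 g) * ψ.1 h = χ.1 g * ψ.1 h + χ'.1 g * ψ.1 h
    ring)

lemma cupX_apply (χ ψ : Xp 𝓛 p) : cupX χ ψ = H2mk 𝓛 (triv p G) (cupZ2 χ ψ) := rfl

/-- A class of `H2 𝓛 (triv p G)` vanishes iff the cocycle is a coboundary in the sense of `IsCob`. -/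
lemma H2mk_triv_eq_zero_iff (c : ↥(Z2 𝓛 (triv p G))) :
    H2mk 𝓛 (triv p G) c = 0 ↔ IsCob 𝓛 c.1 := by
  rw [H2mk_eq_zero]
  rfl

lemma cupX_eq_zero_iff (χ ψ : Xp 𝓛 p) : cupX χ ψ = 0 ↔ IsCob 𝓛 (KumSet.cup χ.1 ψ.1) := by
  rw [cupX_apply, H2mk_triv_eq_zero_iff]
  rfl

lemma cupX_skew (χ ψ : Xp 𝓛 p) : cupX χ ψ + cupX ψ χ = 0 := by
  rw [cupX_apply, cupX_apply, ← map_add, H2mk_triv_eq_zero_iff]
  exact KumSet.cup_skew χ.2.1 ψ.2.1 χ.2.2 ψ.2.2

/-- For `p` odd, `χ ∪ χ = 0`. -/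
lemma cupX_self (hp2 : p ≠ 2) (χ : Xp 𝓛 p) : cupX χ χ = 0 := by
  have h := cupX_skew χ χ
  have h2 : (2 : ZMod p) ≠ 0 := by
    intro h
    have h3 : ((2 : ℕ) : ZMod p) = 0 := by exact_mod_cast h
    rw [ZMod.natCast_eq_zero_iff] at h3
    exact hp2 ((Nat.prime_dvd_prime_iff_eq hp.out Nat.prime_two).mp h3)
  rw [← two_smul (ZMod p)] at h
  exact (smul_eq_zero.mp h).resolve_left h2

/-- Restriction of `H²` of the trivial module. -/
noncomputable def resT {H : Type*} [Group H] {𝓛' : LevelSys H} (u : H →* G)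
    (hu : 𝓛.Compat u 𝓛') : H2 𝓛 (triv p G) →ₗ[ZMod p] H2 𝓛' (triv p H) :=
  H2map u hu LinearMap.id (fun _ _ => rfl)

lemma resT_mk {H : Type*} [Group H] {𝓛' : LevelSys H} (u : H →* G)
    (hu : 𝓛.Compat u 𝓛') (c : ↥(Z2 𝓛 (triv p G))) :
    resT u hu (H2mk 𝓛 (triv p G) c) =
      H2mk 𝓛' (triv p H) (Z2map u hu LinearMap.id (fun _ _ => rfl) c) := rfl

lemma resT_cupX {H : Type*} [Group H] {𝓛' : LevelSys H} (u : H →* G)
    (hu : 𝓛.Compat u 𝓛') (χ ψ : Xp 𝓛 p) :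
    resT u hu (cupX χ ψ) = cupX (Xp.pull u hu χ) (Xp.pull u hu ψ) := rfl

end Cup

section Kummer

variable {G : Type*} [Group G] {𝓛 : LevelSys G} {Ω : Type*} [Field Ω] [MulSemiringAction G Ω]
  {p : ℕ} [hp : Fact p.Prime] (K : KumSet 𝓛 Ω p) {F : Type*} [Field F] [Algebra F Ω]
  (hF : IsFixed G (Ω := Ω) F)

/-- The Kummer character of `α` as an element of `Xp`. -/
noncomputable def kumX (α : Ωˣ) (hα : ∀ g : G, uact g (α ^ p) = α ^ p) : Xp 𝓛 p :=
  ⟨K.kum α, kum_lc hα, kum_mul hα⟩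

/-- A chosen `p`-th root in `Ω` of an element of `F`. -/
noncomputable def rootF (a : Fˣ) : Ωˣ := (K.exists_root (Units.map (algebraMap F Ω).toMonoidHom a)).choose

omit hp in
lemma rootF_pow (a : Fˣ) : ((rootF K a : Ωˣ) : Ω) ^ p = algebraMap F Ω a := by
  have h := (K.exists_root (Units.map (algebraMap F Ω).toMonoidHom a)).choose_spec
  exact congrArg Units.val h

include hF in
lemma kumX_eq_of_pow_eq {α β : Ωˣ} {a : Fˣ} (hα : (α : Ω) ^ p = algebraMap F Ω a)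
    (hβ : (β : Ω) ^ p = algebraMap F Ω a) :
    kumX K α (hF.pfix hα) = kumX K β (hF.pfix hβ) := by
  ext g
  change K.kum α g = K.kum β g
  have h1 : (α / β) ^ p = 1 := by
    rw [div_pow, div_eq_one]
    exact Units.ext (by rw [Units.val_pow_eq_pow_val, Units.val_pow_eq_pow_val, hα, hβ])
  obtain ⟨i, hi⟩ := K.exists_zp h1
  have h2 : α = K.zp i * β := by rw [← hi, div_mul_cancel]
  apply kum_unique
  rw [h2, map_mul, K.uact_zp, kum_spec (K := K) (hF.pfix hβ)]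
  exact mul_left_comm _ _ _

/-- The Kummer map of `F = Ω^G`. -/
noncomputable def kumF : Fˣ →* Multiplicative (Xp 𝓛 p) :=
  MonoidHom.mk' (fun a => Multiplicative.ofAdd (kumX K (rootF K a) (hF.pfix (rootF_pow K a)))) (by
    intro a b
    rw [← ofAdd_add]
    congr 1
    have h1 : ((rootF K a * rootF K b : Ωˣ) : Ω) ^ p = algebraMap F Ω ((a * b : Fˣ) : F) := by
      rw [Units.val_mul, mul_pow, rootF_pow, rootF_pow, Units.val_mul, map_mul]
    rw [kumX_eq_of_pow_eq K hF (rootF_pow K (a * b)) h1]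
    ext g
    exact kum_mul_elt (hF.pfix (rootF_pow K a)) (hF.pfix (rootF_pow K b)) g)

lemma kumF_eq {α : Ωˣ} {a : Fˣ} (hα : (α : Ω) ^ p = algebraMap F Ω a) :
    (kumF K hF a).toAdd = kumX K α (hF.pfix hα) :=
  kumX_eq_of_pow_eq K hF (rootF_pow K a) hα

/-- The defining property of the Kummer character. -/
lemma smul_eq_kumF {α : Ωˣ} {a : Fˣ} (hα : (α : Ω) ^ p = algebraMap F Ω a) (g : G) :
    uact g α = K.zp ((kumF K hF a).toAdd.1 g) * α := by
  rw [kumF_eq K hF hα]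
  exact kum_spec (hF.pfix hα) g

lemma kumF_eq_one_iff (a : Fˣ) : kumF K hF a = 1 ↔ ∃ b : Fˣ, b ^ p = a := by
  constructor
  · intro h
    by_contra! hcon
    obtain ⟨g, hg⟩ := K.exists_kum_ne_zero hF (rootF_pow K a) hcon
    apply hg
    have h1 : kumX K (rootF K a) (hF.pfix (rootF_pow K a)) = 0 := by
      rw [← kumF_eq K hF (rootF_pow K a), h]
      rfl
    exact congrFun (congrArg Subtype.val h1) g
  · rintro ⟨b, rfl⟩
    rw [map_pow]
    apply Multiplicative.toAdd.injective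
    rw [toAdd_pow]
    exact Xp.p_nsmul _

lemma kumF_surjective : Function.Surjective (kumF K hF) := by
  intro χ
  obtain ⟨α, hα, hα'⟩ := K.exists_kum χ.toAdd.2.1 χ.toAdd.2.2
  obtain ⟨a, ha⟩ := (hF ((α : Ω) ^ p)).1 (by
    intro g
    have := congrArg Units.val (hα g)
    rwa [coe_uact, Units.val_pow_eq_pow_val] at this)
  have ha0 : a ≠ 0 := by
    rintro rfl
    rw [map_zero] at ha
    exact (pow_ne_zero p α.ne_zero) ha.symm
  refine ⟨Units.mk0 a ha0, ?_⟩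
  apply Multiplicative.toAdd.injective
  rw [kumF_eq K hF (α := α) (by rw [Units.val_mk0, ha])]
  ext g
  exact hα' g

/-- **Cup products of Kummer characters and norms.** -/
theorem cupX_kumF_eq_zero_iff {a b : Fˣ} (hb : ∀ c : Fˣ, c ^ p ≠ b) :
    cupX (kumF K hF a).toAdd (kumF K hF b).toAdd = 0 ↔ Global.IsNormFrom p b a := by
  rw [cupX_eq_zero_iff, kumF_eq K hF (rootF_pow K a), kumF_eq K hF (rootF_pow K b)]
  exact K.cup_isCob_iff_isNormFrom hF (rootF_pow K a) (rootF_pow K b) hb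

/-- The symbol on `F` deduced from a functional on `H²`. -/
noncomputable def symF (φ : H2 𝓛 (triv p G) →+ ZMod p) : Fˣ →* Fˣ →* Multiplicative (ZMod p) :=
  MonoidHom.mk' (fun a => MonoidHom.mk' (fun x =>
    Multiplicative.ofAdd (φ (cupX (kumF K hF a).toAdd (kumF K hF x).toAdd))) (by
      intro x y
      rw [map_mul, toAdd_mul, map_add, map_add, ofAdd_add])) (by
    intro a b
    ext x
    rw [MonoidHom.mul_apply, MonoidHom.mk'_apply, MonoidHom.mk'_apply, MonoidHom.mk'_apply,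
      ← ofAdd_add, ← map_add, map_mul, toAdd_mul, map_add, AddMonoidHom.add_apply])

lemma symF_apply (φ : H2 𝓛 (triv p G) →+ ZMod p) (a x : Fˣ) :
    symF K hF φ a x =
      Multiplicative.ofAdd (φ (cupX (kumF K hF a).toAdd (kumF K hF x).toAdd)) := rfl

lemma symF_skew (φ : H2 𝓛 (triv p G) →+ ZMod p) (a b : Fˣ) :
    symF K hF φ a b * symF K hF φ b a = 1 := by
  rw [symF_apply, symF_apply, ← ofAdd_add, ← map_add, cupX_skew, map_zero, ofAdd_zero]

lemma symF_pow_left (φ : H2 𝓛 (triv p G) →+ ZMod p) (b x : Fˣ) :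
    symF K hF φ (b ^ p) x = 1 := by
  have h : kumF K hF (b ^ p) = 1 := (kumF_eq_one_iff K hF _).mpr ⟨b, rfl⟩
  rw [symF_apply, h, toAdd_one, map_zero, AddMonoidHom.zero_apply, map_zero, ofAdd_zero]

lemma symF_pow_right (φ : H2 𝓛 (triv p G) →+ ZMod p) (b x : Fˣ) :
    symF K hF φ x (b ^ p) = 1 := by
  have h : kumF K hF (b ^ p) = 1 := (kumF_eq_one_iff K hF _).mpr ⟨b, rfl⟩
  rw [symF_apply, h, toAdd_one, map_zero, map_zero, ofAdd_zero]

lemma symF_self (hp2 : p ≠ 2) (φ : H2 𝓛 (triv p G) →+ ZMod p) (a : Fˣ) :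
    symF K hF φ a a = 1 := by
  rw [symF_apply, cupX_self hp2, map_zero, ofAdd_zero]

lemma symF_of_isNormFrom (φ : H2 𝓛 (triv p G) →+ ZMod p) {a x : Fˣ}
    (h : Global.IsNormFrom p a x) : symF K hF φ a x = 1 := by
  by_cases ha : ∃ b : Fˣ, b ^ p = a
  · obtain ⟨b, rfl⟩ := ha
    exact symF_pow_left K hF φ b x
  · push Not at ha
    rw [← cupX_kumF_eq_zero_iff K hF ha] at h
    have h1 := symF_skew K hF φ a x
    have h2 : symF K hF φ x a = 1 := by
      rw [symF_apply, h, map_zero, ofAdd_zero]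
    rwa [h2, mul_one] at h1

lemma isNormFrom_of_symF (φ : H2 𝓛 (triv p G) →+ ZMod p) (hφ : Function.Injective φ) {a x : Fˣ}
    (ha : ∀ b : Fˣ, b ^ p ≠ a) (h : symF K hF φ a x = 1) : Global.IsNormFrom p a x := by
  rw [← cupX_kumF_eq_zero_iff K hF ha]
  have h1 := symF_skew K hF φ a x
  rw [h, one_mul, symF_apply] at h1
  have h2 : φ (cupX (kumF K hF x).toAdd (kumF K hF a).toAdd) = 0 := h1
  exact hφ (h2.trans (map_zero φ).symm)

lemma symF_nondeg (φ : H2 𝓛 (triv p G) →+ ZMod p) (hφ : Function.Injective φ)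
    (hN : ∀ a : Fˣ, (∀ b : Fˣ, b ^ p ≠ a) → ∃ x : Fˣ, ¬ Global.IsNormFrom p a x) (a : Fˣ) :
    (∃ b : Fˣ, b ^ p = a) ↔ ∀ x, symF K hF φ a x = 1 := by
  constructor
  · rintro ⟨b, rfl⟩ x
    exact symF_pow_left K hF φ b x
  · intro h
    by_contra! hcon
    obtain ⟨x, hx⟩ := hN a hcon
    exact hx (isNormFrom_of_symF K hF φ hφ hcon (h x))

lemma symF_eq_one_of_eq (hp2 : p ≠ 2) (φ : H2 𝓛 (triv p G) →+ ZMod p) {a x y : Fˣ} {i : ℤ}
    (h : x = a ^ i * y ^ p) : symF K hF φ a x = 1 := by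
  rw [h, map_mul, map_zpow, symF_self K hF hp2, one_zpow, one_mul, symF_pow_right]

end Kummer

section Naturality

variable {G : Type*} [Group G] {𝓛 : LevelSys G} {Ω : Type*} [Field Ω] [MulSemiringAction G Ω]
  {p : ℕ} [hp : Fact p.Prime] (K : KumSet 𝓛 Ω p) {F : Type*} [Field F] [Algebra F Ω]
  (hF : IsFixed G (Ω := Ω) F)
  {G' : Type*} [Group G'] {𝓛' : LevelSys G'} {Ω' : Type*} [Field Ω'] [MulSemiringAction G' Ω']
  (K' : KumSet 𝓛' Ω' p) {F' : Type*} [Field F'] [Algebra F' Ω']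
  (hF' : IsFixed G' (Ω := Ω') F')
  (j : G' →* G) (hj : 𝓛.Compat j 𝓛') (i : Ω →+* Ω') (φ : F →+* F')
  (hij : ∀ (g : G') (x : Ω), i (j g • x) = g • i x)
  (hiφ : ∀ x : F, i (algebraMap F Ω x) = algebraMap F' Ω' (φ x))
  (hζ : i (K.ζ : Ω) = K'.ζ)

include hij hiφ hζ in
/-- Naturality of Kummer characters. -/
theorem pull_kumF (a : Fˣ) :
    Xp.pull j hj (kumF K hF a).toAdd = (kumF K' hF' (Units.map φ.toMonoidHom a)).toAdd := by
  set α := rootF K a with hα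
  have hαp := rootF_pow K a
  have hα'p : ((Units.map i.toMonoidHom α : Ω'ˣ) : Ω') ^ p =
      algebraMap F' Ω' ((Units.map φ.toMonoidHom a : F'ˣ) : F') := by
    change (i (α : Ω)) ^ p = algebraMap F' Ω' (φ a)
    rw [← map_pow, hα, hαp, hiφ]
  rw [kumF_eq K hF hαp, kumF_eq K' hF' hα'p]
  ext g
  change K.kum α (j g) = K'.kum _ g
  symm
  apply kum_unique
  apply Units.ext
  rw [coe_uact]
  change g • i (α : Ω) = _
  rw [← hij]
  have h1 := congrArg Units.val (kum_spec (K := K) (hF.pfix hαp) (j g))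
  rw [coe_uact] at h1
  rw [h1, Units.val_mul, map_mul, Units.val_mul]
  congr 1
  rw [KumSet.zp, KumSet.zp, Units.val_pow_eq_pow_val, Units.val_pow_eq_pow_val, map_pow, hζ]

include hij hiφ hζ in
/-- Naturality of symbols. -/
theorem symF_pull (f : H2 𝓛' (triv p G') →+ ZMod p) (a x : Fˣ) :
    symF K' hF' f (Units.map φ.toMonoidHom a) (Units.map φ.toMonoidHom x) =
      symF K hF (f.comp (resT j hj).toAddMonoidHom) a x := by
  rw [symF_apply, symF_apply, ← pull_kumF K hF K' hF' j hj i φ hij hiφ hζ,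
    ← pull_kumF K hF K' hF' j hj i φ hij hiφ hζ, ← resT_cupX]
  rfl

end Naturality

end Fermat.Agent.CFT.Bridge
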