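import Fermat.Agent.CFT.Bridge.Norm
import Fermat.Agent.Frob.Exists

/-!
# The local Galois group is the decomposition group

* `exists_localGaloisToGlobal_of_norm` : an automorphism of `ℚ̄` preserving the norm induced by
  `padicEmbedding q` comes from `Gal(PadicAlgCl q / ℚ_[q])`.
* `range_localGaloisToGlobal` : the range of `localGaloisToGlobal q` is the decomposition subgroup of
  `padicPlace q`.
* `exists_smul_padicPlace` : each place above `q` is conjugate to `padicPlace q`.
-/

set_option autoImplicit false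

open scoped NNReal Pointwise TensorProduct

namespace Fermat.Agent.CFT.Bridge

variable (q : ℕ) [hq : Fact q.Prime]

lemma mem_padicPlace_iff_norm {x : AlgebraicClosure ℚ} :
    x ∈ padicPlace q ↔ ‖padicEmbedding q x‖ ≤ 1 := by
  rw [mem_padicPlace_iff, ← NNReal.coe_le_coe, coe_nnnorm, NNReal.coe_one]

lemma mem_nonunits_padicPlace_iff_norm {x : AlgebraicClosure ℚ} :
    x ∈ (padicPlace q).nonunits ↔ ‖padicEmbedding q x‖ < 1 := by
  rcases eq_or_ne x 0 with rfl | hx
  · simp
  rw [ValuationSubring.mem_nonunits_iff, ← not_le, ← not_le,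
    ← one_div_one (G := (padicPlace q).ValueGroup)]
  rw [not_iff_not]
  have h1 : ‖padicEmbedding q x⁻¹‖ ≤ 1 ↔ 1 ≤ ‖padicEmbedding q x‖ := by
    rw [map_inv₀, norm_inv, inv_le_one₀ (norm_pos_iff.mpr ((map_ne_zero _).mpr hx))]
  rw [← h1, ← mem_padicPlace_iff_norm, ← ValuationSubring.valuation_le_one_iff, map_inv₀,
    inv_le_one₀ (by rw [zero_lt_iff]; exact (map_ne_zero _).mpr hx)]
  simp

lemma padicPlace_liesOverPrime : (padicPlace q).LiesOverPrime q := by
  rw [ValuationSubring.LiesOverPrime, mem_nonunits_padicPlace_iff_norm, map_natCast,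
    norm_natCast_q]
  exact inv_lt_one_of_one_lt₀ (one_lt_q q)

/-- an automorphism of `ℚ̄` whose composition with the embedding has the same norm is local -/
theorem exists_localGaloisToGlobal_of_norm (σ : AlgebraicClosure ℚ ≃ₐ[ℚ] AlgebraicClosure ℚ)
    (h : ∀ x, ‖padicEmbedding q (σ x)‖ = ‖padicEmbedding q x‖) :
    ∃ τ : PadicAlgCl q ≃ₐ[ℚ_[q]] PadicAlgCl q, localGaloisToGlobal q τ = σ := by
  obtain ⟨τ, hτ⟩ := exists_algEquiv_of_norm_eq (padicEmbedding q)
    ((padicEmbedding q).comp (σ : AlgebraicClosure ℚ →ₐ[ℚ] AlgebraicClosure ℚ))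
    (fun x => (h x).symm)
  refine ⟨τ, AlgEquiv.ext fun x => (padicEmbedding q).toRingHom.injective ?_⟩
  have := padicEmbedding_localGaloisToGlobal q τ x
  rw [hτ] at this
  exact this

theorem range_localGaloisToGlobal :
    (localGaloisToGlobal q).range = (padicPlace q).decompositionSubgroup ℚ := by
  apply le_antisymm
  · rintro _ ⟨τ, rfl⟩
    exact localGaloisToGlobal_mem_decompositionSubgroup q τ
  · intro σ hσ
    rw [MulAction.mem_stabilizer_iff] at hσ
    have h1 : ∀ x, x ∈ padicPlace q ↔ σ⁻¹ x ∈ padicPlace q := by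
      intro x
      conv_lhs => rw [← hσ]
      rw [ValuationSubring.mem_pointwise_smul_iff_inv_smul_mem]
      rfl
    have h2 : ∀ x, σ x ∈ padicPlace q ↔ x ∈ padicPlace q := by
      intro x
      rw [h1 (σ x)]
      simp
    obtain ⟨τ, hτ⟩ := exists_localGaloisToGlobal_of_norm q σ (fun x => by
      refine norm_eq_of_le_one_iff
        ((padicEmbedding q).comp (σ : AlgebraicClosure ℚ →ₐ[ℚ] AlgebraicClosure ℚ)).toRingHom
        (padicEmbedding q).toRingHom ?_ x
      intro y
      have := h2 y
      rw [mem_padicPlace_iff_norm, mem_padicPlace_iff_norm] at this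
      exact this)
    exact ⟨τ, hτ⟩

/-- the elements of the decomposition group are exactly those preserving the norm. -/
lemma mem_range_localGaloisToGlobal_iff (σ : AlgebraicClosure ℚ ≃ₐ[ℚ] AlgebraicClosure ℚ) :
    σ ∈ (localGaloisToGlobal q).range ↔
      ∀ x, ‖padicEmbedding q (σ x)‖ = ‖padicEmbedding q x‖ := by
  constructor
  · rintro ⟨τ, rfl⟩ x
    rw [padicEmbedding_localGaloisToGlobal]
    have := nnnorm_padicAlgCl_algEquiv q τ (padicEmbedding q x)
    exact congrArg NNReal.toReal this
  · intro h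
    obtain ⟨τ, hτ⟩ := exists_localGaloisToGlobal_of_norm q σ h
    exact ⟨τ, hτ⟩

/-- Each place of `ℚ̄` above `q` is conjugate to `padicPlace q`. -/
theorem exists_smul_padicPlace {A : ValuationSubring (AlgebraicClosure ℚ)}
    (hA : A.LiesOverPrime q) :
    ∃ g : AlgebraicClosure ℚ ≃ₐ[ℚ] AlgebraicClosure ℚ, g • padicPlace q = A :=
  Frob.exists_smul_eq hq.out (padicPlace_liesOverPrime q) hA

/-- Each embedding of an algebraic extension of `ℚ` inside `ℚ̄` into `PadicAlgCl q` is the restriction
of `padicEmbedding q ∘ g`. -/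
theorem exists_eq_padicEmbedding_comp (K : IntermediateField ℚ (AlgebraicClosure ℚ))
    (τ : K →ₐ[ℚ] PadicAlgCl q) :
    ∃ g : AlgebraicClosure ℚ ≃ₐ[ℚ] AlgebraicClosure ℚ, ∀ x : K, τ x = padicEmbedding q (g x) := by
  obtain ⟨τ', hτ'⟩ := IntermediateField.exists_algHom_of_splits (F := ℚ)
    (E := AlgebraicClosure ℚ) (K := PadicAlgCl q)
    (fun s => ⟨Algebra.IsIntegral.isIntegral s, IsAlgClosed.splits _⟩) τ
  -- both have the same range
  have hr : ∀ x, ∃ y, padicEmbedding q y = τ' x := by
    intro x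
    have h1 : (Polynomial.aeval (τ' x)) (minpoly ℚ x) = 0 := by
      rw [Polynomial.aeval_algHom_apply, minpoly.aeval, map_zero]
    have hs : ((minpoly ℚ x).map (algebraMap ℚ (AlgebraicClosure ℚ))).Splits :=
      IsAlgClosed.splits _
    have h2 : (((minpoly ℚ x).map (algebraMap ℚ (AlgebraicClosure ℚ))).map
        (padicEmbedding q).toRingHom).roots =
        ((minpoly ℚ x).map (algebraMap ℚ (AlgebraicClosure ℚ))).roots.map (padicEmbedding q) :=
      hs.roots_map _
    have h3 : τ' x ∈ (((minpoly ℚ x).map (algebraMap ℚ (AlgebraicClosure ℚ))).map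
        (padicEmbedding q).toRingHom).roots := by
      rw [Polynomial.map_map]
      have : (padicEmbedding q).toRingHom.comp (algebraMap ℚ (AlgebraicClosure ℚ)) =
        algebraMap ℚ (PadicAlgCl q) := Subsingleton.elim _ _
      rw [this, Polynomial.mem_roots_map (minpoly.ne_zero (Algebra.IsIntegral.isIntegral x))]
      exact h1
    rw [h2, Multiset.mem_map] at h3
    obtain ⟨y, _, hy⟩ := h3
    exact ⟨y, hy⟩
  choose f hf using hr
  have hinj : Function.Injective (padicEmbedding q) := (padicEmbedding q).toRingHom.injective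
  let φ : AlgebraicClosure ℚ →ₐ[ℚ] AlgebraicClosure ℚ :=
    { toFun := f
      map_one' := hinj (by rw [hf, map_one, map_one])
      map_mul' := fun a b => hinj (by rw [hf, map_mul, map_mul, hf, hf])
      map_zero' := hinj (by rw [hf, map_zero, map_zero])
      map_add' := fun a b => hinj (by rw [hf, map_add, map_add, hf, hf])
      commutes' := fun r => hinj (by rw [hf, AlgHom.commutes, AlgHom.commutes]) }
  refine ⟨AlgEquiv.ofBijective φ (Algebra.IsAlgebraic.algHom_bijective φ), fun x => ?_⟩
  exact (DFunLike.congr_fun hτ' x).symm.trans (hf x).symm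

end Fermat.Agent.CFT.Bridge
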