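import Fermat.Agent.CFT.Bridge.LocInv

/-!
# Places of a number field `K ⊆ ℚ̄` and restriction maps in cohomology

A place of `K` above `q` is given by `g ∈ Gal(ℚ̄/ℚ)`: the embedding `emb K q g = ι_q ∘ g|_K`.

* `jw K q g : (locField (emb K q g)).fixingSubgroup →* K.fixingSubgroup`, `h ↦ g⁻¹ r_q(h) g`;
* `compat_jw`;
* `placeOf_emb_eq_iff`, `exists_emb` : `G_q \ Γ / G_K ↔ {v ∣ q}`;
* `resW K q g` : restriction `H²(G_K, ZMod p) → H²(G_w, ZMod p)`;
* `symF_resW` : compatibility of symbols;
* `globSymbols` : the `LocalSymbols` on `K` deduced from local invariants.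
-/

set_option autoImplicit false

open Fermat.Agent.PT Fermat.Agent.CFT.Kum Fermat.Agent.CFT.Kum.KumSet
open IsDedekindDomain NumberField

namespace Fermat.Agent.CFT.Bridge

section emb

variable (K : IntermediateField ℚ (AlgebraicClosure ℚ)) (q : ℕ) [hq : Fact q.Prime]
  (g : AlgebraicClosure ℚ ≃ₐ[ℚ] AlgebraicClosure ℚ)

/-- The embedding `ι_q ∘ g : ℚ̄ → PadicAlgCl q`. -/
noncomputable def embBar : AlgebraicClosure ℚ →ₐ[ℚ] PadicAlgCl q :=
  (padicEmbedding q).comp (g : AlgebraicClosure ℚ →ₐ[ℚ] AlgebraicClosure ℚ)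

lemma embBar_apply (x : AlgebraicClosure ℚ) : embBar q g x = padicEmbedding q (g x) := rfl

/-- The embedding `ι_q ∘ g|_K : K → PadicAlgCl q`. -/
noncomputable def emb : K →ₐ[ℚ] PadicAlgCl q := (embBar q g).comp K.val

lemma emb_apply (x : K) : emb K q g x = padicEmbedding q (g x) := rfl

variable {g} in
lemma mem_fixing_locField_emb_iff {h : PadicAlgCl q ≃ₐ[ℚ_[q]] PadicAlgCl q} :
    h ∈ (locField (emb K q g)).fixingSubgroup ↔
      g⁻¹ * localGaloisToGlobal q h * g ∈ K.fixingSubgroup :=
  mem_fixingSubgroup_locField_iff K g (emb K q g) (fun _ => rfl) h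

/-- The homomorphism `h ↦ g⁻¹ r_q(h) g` from the local group of the place to `G_K`. -/
noncomputable def jw : (locField (emb K q g)).fixingSubgroup →* K.fixingSubgroup where
  toFun h := ⟨g⁻¹ * localGaloisToGlobal q h * g, (mem_fixing_locField_emb_iff K q).mp h.2⟩
  map_one' := by
    apply Subtype.ext
    simp
  map_mul' a b := by
    apply Subtype.ext
    simp only [Subgroup.coe_mul, map_mul]
    group

@[simp] lemma coe_jw (h : (locField (emb K q g)).fixingSubgroup) :
    ((jw K q g h : K.fixingSubgroup) : AlgebraicClosure ℚ ≃ₐ[ℚ] AlgebraicClosure ℚ) =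
      g⁻¹ * localGaloisToGlobal q h * g := rfl

lemma embBar_jw (h : (locField (emb K q g)).fixingSubgroup) (x : AlgebraicClosure ℚ) :
    embBar q g (jw K q g h • x) = h • embBar q g x := by
  change padicEmbedding q (g ((g⁻¹ * localGaloisToGlobal q h * g) x)) = _
  have h1 : g ((g⁻¹ * localGaloisToGlobal q h * g) x) = localGaloisToGlobal q h (g x) := by
    rw [mul_assoc, AlgEquiv.mul_apply, AlgEquiv.mul_apply, ← AlgEquiv.mul_apply g,
      mul_inv_cancel, AlgEquiv.one_apply]
  rw [h1, padicEmbedding_localGaloisToGlobal]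
  rfl

lemma compat_jw : (lev K).Compat (jw K q g) (lev (locField (emb K q g))) := by
  rintro W ⟨V, ⟨E, hE, hEV⟩, hVW⟩
  have : NumberField E := ⟨⟩
  refine ⟨(locField (emb E q g)).fixingSubgroup, fixingSubgroup_mem_galLevels _, ?_⟩
  intro h hh
  rw [Subgroup.mem_comap] at hh ⊢
  apply hVW
  rw [Subgroup.mem_comap]
  exact hEV ((mem_fixing_locField_emb_iff E q).mp hh)

end emb

section places

variable (K : IntermediateField ℚ (AlgebraicClosure ℚ)) [FiniteDimensional ℚ K]
  {q : ℕ} [hq : Fact q.Prime]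

instance numberField_of_finite : NumberField K := ⟨⟩

/-- Two elements of `Gal(ℚ̄/ℚ)` induce the same place of `K` iff they are in the same double coset. -/
theorem placeOf_emb_eq_iff (g g' : AlgebraicClosure ℚ ≃ₐ[ℚ] AlgebraicClosure ℚ) :
    placeOf (emb K q g) = placeOf (emb K q g') ↔
      ∃ (σ : PadicAlgCl q ≃ₐ[ℚ_[q]] PadicAlgCl q), ∃ u ∈ K.fixingSubgroup,
        g' = localGaloisToGlobal q σ * g * u := by
  rw [placeOf_eq_iff]
  constructor
  · rintro ⟨σ, hσ⟩
    refine ⟨σ, (localGaloisToGlobal q σ * g)⁻¹ * g', ?_, by group⟩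
    rw [IntermediateField.mem_fixingSubgroup_iff]
    intro x hx
    have h1 : g' x = (localGaloisToGlobal q σ * g) x := by
      apply (padicEmbedding q).toRingHom.injective
      change padicEmbedding q _ = padicEmbedding q _
      have h2 := hσ ⟨x, hx⟩
      rw [emb_apply, emb_apply] at h2
      rw [AlgEquiv.mul_apply, padicEmbedding_localGaloisToGlobal]
      exact h2.symm
    rw [AlgEquiv.mul_apply, h1, ← AlgEquiv.mul_apply, inv_mul_cancel, AlgEquiv.one_apply]
  · rintro ⟨σ, u, hu, rfl⟩
    refine ⟨σ, fun x => ?_⟩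
    rw [emb_apply, emb_apply, AlgEquiv.mul_apply, AlgEquiv.mul_apply,
      (IntermediateField.mem_fixingSubgroup_iff _ _).mp hu _ x.2,
      padicEmbedding_localGaloisToGlobal]

/-- Every place above `q` is induced by some `g`. -/
theorem exists_emb (v : HeightOneSpectrum (𝓞 K)) (hv : (q : 𝓞 K) ∈ v.asIdeal) :
    ∃ g : AlgebraicClosure ℚ ≃ₐ[ℚ] AlgebraicClosure ℚ, placeOf (emb K q g) = v := by
  obtain ⟨τ, hτ⟩ := exists_placeOf_eq (q := q) v hv
  obtain ⟨g, hg⟩ := exists_eq_padicEmbedding_comp q K τ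
  refine ⟨g, ?_⟩
  rw [← hτ]
  congr 1
  ext x
  exact (hg x).symm

end places

section res

variable {p : ℕ} [hp : Fact p.Prime] (K : IntermediateField ℚ (AlgebraicClosure ℚ))
  (q : ℕ) [hq : Fact q.Prime] (g : AlgebraicClosure ℚ ≃ₐ[ℚ] AlgebraicClosure ℚ)

/-- Restriction to the local group of the place `(q, g)`. -/
noncomputable def resW : H2 (lev K) (triv p K.fixingSubgroup) →ₗ[ZMod p]
    H2 (lev (locField (emb K q g))) (triv p (locField (emb K q g)).fixingSubgroup) :=
  resT (jw K q g) (compat_jw K q g)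

omit hp in
lemma primitiveRoot_toLoc {ζ : K} (hζ : IsPrimitiveRoot ζ p) :
    IsPrimitiveRoot (toLoc (emb K q g) ζ) p :=
  hζ.map_of_injective (toLoc (emb K q g)).toRingHom.injective

/-- Compatibility of the global and local symbols. -/
theorem symF_resW [FiniteDimensional ℚ K] {ζ : K} (hζ : IsPrimitiveRoot ζ p)
    (f : H2 (lev (locField (emb K q g))) (triv p (locField (emb K q g)).fixingSubgroup) →+ ZMod p)
    (a x : Kˣ) :
    symF (kumOf (locField (emb K q g)) (primitiveRoot_toLoc K q g hζ))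
        (isFixed_fixingSubgroup (locField (emb K q g))) f
        (toLocU (emb K q g) a) (toLocU (emb K q g) x) =
      symF (kumOf K hζ) (isFixed_fixingSubgroup K) (f.comp (resW K q g).toAddMonoidHom) a x :=
  symF_pull (kumOf K hζ) (isFixed_fixingSubgroup K)
    (kumOf (locField (emb K q g)) (primitiveRoot_toLoc K q g hζ))
    (isFixed_fixingSubgroup (locField (emb K q g))) (jw K q g) (compat_jw K q g)
    (embBar q g).toRingHom (toLoc (emb K q g)).toRingHom (embBar_jw K q g) (fun _ => rfl) rfl f a x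

end res

section glob

variable (K : IntermediateField ℚ (AlgebraicClosure ℚ)) [FiniteDimensional ℚ K]

/-- A representation of a place `v` of `K` by a prime `q` and `g ∈ Gal(ℚ̄/ℚ)`. -/
structure PlaceRep (v : HeightOneSpectrum (𝓞 K)) where
  /-- the residue characteristic -/
  q : ℕ
  /-- is prime -/
  hq : Fact q.Prime
  /-- the double coset representative -/
  g : AlgebraicClosure ℚ ≃ₐ[ℚ] AlgebraicClosure ℚ
  /-- it represents `v` -/
  h : placeOf (emb K q g) = v

theorem nonempty_placeRep (v : HeightOneSpectrum (𝓞 K)) : Nonempty (PlaceRep K v) := by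
  obtain ⟨q, hq, τ, hτ⟩ := exists_prime_placeOf_eq v
  obtain ⟨g, hg⟩ := exists_emb (q := q) K v (by rw [← hτ]; exact q_mem_placeOf τ)
  exact ⟨⟨q, hq, g, hg⟩⟩

/-- A chosen representation of the place `v`. -/
noncomputable def placeRep (v : HeightOneSpectrum (𝓞 K)) : PlaceRep K v :=
  (nonempty_placeRep K v).some

variable {K} {p : ℕ} [hp : Fact p.Prime]

/-- The local group of the place `v` (for a given representation). -/
noncomputable abbrev PlaceRep.lf {v : HeightOneSpectrum (𝓞 K)} (P : PlaceRep K v) :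
    letI := P.hq; IntermediateField ℚ_[P.q] (PadicAlgCl P.q) :=
  letI := P.hq; locField (emb K P.q P.g)

/-- An injective additive functional on the local `H²`. -/
structure LocFunc (p : ℕ) {v : HeightOneSpectrum (𝓞 K)} (P : PlaceRep K v) where
  /-- the functional -/
  inv : letI := P.hq; H2 (lev P.lf) (triv p P.lf.fixingSubgroup) →+ ZMod p
  /-- it is injective -/
  inj : Function.Injective inv

/-- The composite `H²(G_K, ZMod p) → H²(G_v, ZMod p) → ZMod p`. -/
noncomputable def LocFunc.invK {v : HeightOneSpectrum (𝓞 K)} {P : PlaceRep K v}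
    (I : LocFunc p P) : H2 (lev K) (triv p K.fixingSubgroup) →+ ZMod p :=
  letI := P.hq; I.inv.comp (resW K P.q P.g).toAddMonoidHom

/-- Local symbol data at the place `v`. -/
noncomputable def LocFunc.locSymAt (hp2 : p ≠ 2) {ζ : K} (hζ : IsPrimitiveRoot ζ p)
    {v : HeightOneSpectrum (𝓞 K)} {P : PlaceRep K v} (I : LocFunc p P) : LocSymAt p K v :=
  letI := P.hq
  { q := P.q
    hq := P.hq
    τ := emb K P.q P.g
    hτ := P.h
    s := locSymOf (locField (emb K P.q P.g)) hp2 (primitiveRoot_toLoc K P.q P.g hζ) I.inv I.inj }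

/-- The symbols on `Kˣ` attached to local invariants. -/
noncomputable def globSymbols (hp2 : p ≠ 2) {ζ : K} (hζ : IsPrimitiveRoot ζ p)
    (P : ∀ v, PlaceRep K v) (I : ∀ v, LocFunc p (P v)) : Global.LocalSymbols p K :=
  localSymbols hp.out.ne_zero fun v => (I v).locSymAt hp2 hζ

/-- The symbols are given by the local invariants of the cup products of the Kummer characters. -/
theorem globSymbols_sym (hp2 : p ≠ 2) {ζ : K} (hζ : IsPrimitiveRoot ζ p)
    (P : ∀ v, PlaceRep K v) (I : ∀ v, LocFunc p (P v)) (v : HeightOneSpectrum (𝓞 K)) :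
    (globSymbols hp2 hζ P I).sym v =
      symF (kumOf K hζ) (isFixed_fixingSubgroup K) (I v).invK := by
  let _ := (P v).hq
  ext a x
  exact symF_resW K (P v).q (P v).g hζ (I v).inv a x

end glob

end Fermat.Agent.CFT.Bridge
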