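import Fermat.Agent.CFT.Bridge.Places

/-!
# The local field `ℚ_[q](τ K) ⊆ PadicAlgCl q` attached to an embedding `τ : K → PadicAlgCl q`
-/

set_option autoImplicit false

open scoped NNReal Pointwise TensorProduct
open IsDedekindDomain NumberField

namespace Fermat.Agent.CFT.Bridge

variable {q : ℕ} [hq : Fact q.Prime]

section locField

variable {K : Type*} [Field K] [CharZero K]

/-- The compositum `ℚ_[q] · τ(K)` inside `PadicAlgCl q`. -/
noncomputable def locField (τ : K →ₐ[ℚ] PadicAlgCl q) : IntermediateField ℚ_[q] (PadicAlgCl q) :=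
  (tensorMap τ).range.toIntermediateField' (Subalgebra.isField_of_algebraic _)

lemma mem_locField_iff (τ : K →ₐ[ℚ] PadicAlgCl q) (y : PadicAlgCl q) :
    y ∈ locField τ ↔ ∃ z, tensorMap τ z = y := by
  have hFS : (locField τ).toSubalgebra = (tensorMap τ).range := toSubalgebra_toIntermediateField' _ _
  rw [← IntermediateField.mem_toSubalgebra, hFS]
  rfl

lemma apply_mem_locField (τ : K →ₐ[ℚ] PadicAlgCl q) (x : K) : τ x ∈ locField τ :=
  (mem_locField_iff τ _).mpr ⟨1 ⊗ₜ x, by rw [tensorMap_tmul, map_one, one_mul]⟩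

lemma locField_le_iff (τ : K →ₐ[ℚ] PadicAlgCl q) (k : IntermediateField ℚ_[q] (PadicAlgCl q)) :
    locField τ ≤ k ↔ ∀ x, τ x ∈ k := by
  constructor
  · exact fun h x => h (apply_mem_locField τ x)
  · intro h y hy
    obtain ⟨z, rfl⟩ := (mem_locField_iff τ _).mp hy
    induction z using TensorProduct.induction_on with
    | zero => rw [map_zero]; exact k.zero_mem
    | tmul a x => rw [tensorMap_tmul]; exact k.mul_mem (k.algebraMap_mem a) (h x)
    | add a b ha hb =>
      rw [map_add]
      exact k.add_mem (ha ((mem_locField_iff τ _).mpr ⟨a, rfl⟩))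
        (hb ((mem_locField_iff τ _).mpr ⟨b, rfl⟩))

lemma locField_eq_adjoin (τ : K →ₐ[ℚ] PadicAlgCl q) :
    locField τ = IntermediateField.adjoin ℚ_[q] (Set.range τ) := by
  apply le_antisymm
  · rw [locField_le_iff]
    exact fun x => IntermediateField.subset_adjoin _ _ ⟨x, rfl⟩
  · rw [IntermediateField.adjoin_le_iff]
    rintro _ ⟨x, rfl⟩
    exact apply_mem_locField τ x

/-- the embedding of `K` into the local field. -/
noncomputable def toLoc (τ : K →ₐ[ℚ] PadicAlgCl q) : K →ₐ[ℚ] locField τ where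
  toFun x := ⟨τ x, apply_mem_locField τ x⟩
  map_one' := Subtype.ext (map_one τ)
  map_mul' a b := Subtype.ext (map_mul τ a b)
  map_zero' := Subtype.ext (map_zero τ)
  map_add' a b := Subtype.ext (map_add τ a b)
  commutes' r := Subtype.ext (AlgHom.commutes τ r)

@[simp] lemma coe_toLoc (τ : K →ₐ[ℚ] PadicAlgCl q) (x : K) : (toLoc τ x : PadicAlgCl q) = τ x := rfl

instance finiteDimensional_locField [FiniteDimensional ℚ K] (τ : K →ₐ[ℚ] PadicAlgCl q) :
    FiniteDimensional ℚ_[q] (locField τ) := by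
  let g : ℚ_[q] ⊗[ℚ] K →ₗ[ℚ_[q]] locField τ :=
    (tensorMap τ).toLinearMap.codRestrict (locField τ).toSubalgebra.toSubmodule
      (fun z => (mem_locField_iff τ _).mpr ⟨z, rfl⟩)
  refine Module.Finite.of_surjective g ?_
  rintro ⟨y, hy⟩
  obtain ⟨z, hz⟩ := (mem_locField_iff τ _).mp hy
  exact ⟨z, Subtype.ext hz⟩

/-- `K` is dense in the local field. -/
theorem exists_norm_sub_lt (τ : K →ₐ[ℚ] PadicAlgCl q) {y : PadicAlgCl q} (hy : y ∈ locField τ)
    {ε : ℝ} (hε : 0 < ε) : ∃ x : K, ‖τ x - y‖ < ε := by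
  classical
  obtain ⟨z, rfl⟩ := (mem_locField_iff τ _).mp hy
  induction z using TensorProduct.induction_on generalizing ε with
  | zero => exact ⟨0, by simpa using hε⟩
  | tmul a x =>
    rw [tensorMap_tmul]
    obtain ⟨r, hr⟩ := Padic.rat_dense q a (ε := ε / (‖τ x‖ + 1)) (by positivity)
    refine ⟨algebraMap ℚ K r * x, ?_⟩
    rw [map_mul, AlgHom.commutes, ← sub_mul, norm_mul]
    have h1 : ‖algebraMap ℚ (PadicAlgCl q) r - algebraMap ℚ_[q] (PadicAlgCl q) a‖ = ‖a - r‖ := by
      have h2 : algebraMap ℚ (PadicAlgCl q) r = algebraMap ℚ_[q] (PadicAlgCl q) (r : ℚ_[q]) := by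
        simp
      rw [h2, ← map_sub, norm_algebraMap', norm_sub_rev]
    rw [h1]
    calc ‖a - r‖ * ‖τ x‖ ≤ ‖a - r‖ * (‖τ x‖ + 1) := by gcongr; linarith
      _ < ε / (‖τ x‖ + 1) * (‖τ x‖ + 1) := by gcongr
      _ = ε := by field_simp
  | add a b ha hb =>
    obtain ⟨x, hx⟩ := ha hε ((mem_locField_iff τ _).mpr ⟨a, rfl⟩)
    obtain ⟨y, hy⟩ := hb hε ((mem_locField_iff τ _).mpr ⟨b, rfl⟩)
    refine ⟨x + y, ?_⟩
    rw [map_add, map_add, add_sub_add_comm]
    exact lt_of_le_of_lt (PadicAlgCl.isNonarchimedean q _ _) (max_lt hx hy)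

theorem denseRange_toLoc (τ : K →ₐ[ℚ] PadicAlgCl q) : DenseRange (toLoc τ) := by
  rw [Metric.denseRange_iff]
  rintro ⟨y, hy⟩ r hr
  obtain ⟨x, hx⟩ := exists_norm_sub_lt τ hy hr
  refine ⟨x, ?_⟩
  rw [dist_comm]
  change dist (τ x) y < r
  rw [dist_eq_norm]
  exact hx

/-- conjugation of local fields -/
lemma locField_comp (σ : PadicAlgCl q ≃ₐ[ℚ_[q]] PadicAlgCl q) (τ τ' : K →ₐ[ℚ] PadicAlgCl q)
    (h : ∀ x, σ (τ x) = τ' x) :
    locField τ' = (locField τ).map (σ : PadicAlgCl q →ₐ[ℚ_[q]] PadicAlgCl q) := by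
  rw [locField_eq_adjoin, locField_eq_adjoin, IntermediateField.adjoin_map]
  congr 1
  ext y
  constructor
  · rintro ⟨x, rfl⟩
    exact ⟨τ x, ⟨x, rfl⟩, h x⟩
  · rintro ⟨_, ⟨x, rfl⟩, rfl⟩
    exact ⟨x, (h x).symm⟩

end locField

section groups

/-- The subgroup of `Gal(PadicAlgCl q / ℚ_[q])` fixing the local field of `padicEmbedding q ∘ g` is the
preimage of the stabiliser `g G_K g⁻¹`. -/
theorem mem_fixingSubgroup_locField_iff (K : IntermediateField ℚ (AlgebraicClosure ℚ))
    (g : AlgebraicClosure ℚ ≃ₐ[ℚ] AlgebraicClosure ℚ) (τ : K →ₐ[ℚ] PadicAlgCl q)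
    (hτ : ∀ x : K, τ x = padicEmbedding q (g x)) (h : PadicAlgCl q ≃ₐ[ℚ_[q]] PadicAlgCl q) :
    h ∈ (locField τ).fixingSubgroup ↔ g⁻¹ * localGaloisToGlobal q h * g ∈ K.fixingSubgroup := by
  have hinj : Function.Injective (padicEmbedding q) := (padicEmbedding q).toRingHom.injective
  have key : ∀ x : K, h (τ x) = τ x ↔ (g⁻¹ * localGaloisToGlobal q h * g) x = x := by
    intro x
    rw [hτ, ← padicEmbedding_localGaloisToGlobal]
    constructor
    · intro h1
      have h2 := hinj h1
      change g⁻¹ (localGaloisToGlobal q h (g x)) = x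
      rw [h2]
      exact g.symm_apply_apply _
    · intro h1
      have h2 : g⁻¹ (localGaloisToGlobal q h (g x)) = x := h1
      have h3 := congrArg g h2
      have h4 : g (g⁻¹ (localGaloisToGlobal q h (g x))) = localGaloisToGlobal q h (g x) :=
        g.apply_symm_apply _
      rw [h4] at h3
      rw [h3]
  rw [IntermediateField.mem_fixingSubgroup_iff, IntermediateField.mem_fixingSubgroup_iff]
  constructor
  · intro h1 x hx
    exact (key ⟨x, hx⟩).mp (h1 _ (apply_mem_locField τ _))
  · intro h1 y hy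
    obtain ⟨z, rfl⟩ := (mem_locField_iff τ _).mp hy
    clear hy
    induction z using TensorProduct.induction_on with
    | zero => simp
    | tmul a x =>
      rw [tensorMap_tmul, map_mul, AlgEquiv.commutes, (key x).mpr (h1 _ x.2)]
    | add a b ha hb => rw [map_add, map_add, ha, hb]

end groups

section krasner

/-- Every algebraic number of `PadicAlgCl q` is in the range of `padicEmbedding q`. -/
theorem exists_padicEmbedding_eq {y : PadicAlgCl q} {g : Polynomial ℚ} (hg : g ≠ 0)
    (hy : Polynomial.aeval y g = 0) : ∃ x : AlgebraicClosure ℚ, padicEmbedding q x = y := by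
  have hs : (g.map (algebraMap ℚ (AlgebraicClosure ℚ))).Splits := IsAlgClosed.splits _
  have h2 : ((g.map (algebraMap ℚ (AlgebraicClosure ℚ))).map
      (padicEmbedding q).toRingHom).roots =
      (g.map (algebraMap ℚ (AlgebraicClosure ℚ))).roots.map (padicEmbedding q) :=
    hs.roots_map _
  have h3 : y ∈ ((g.map (algebraMap ℚ (AlgebraicClosure ℚ))).map
      (padicEmbedding q).toRingHom).roots := by
    rw [Polynomial.map_map]
    have : (padicEmbedding q).toRingHom.comp (algebraMap ℚ (AlgebraicClosure ℚ)) =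
      algebraMap ℚ (PadicAlgCl q) := Subsingleton.elim _ _
    rw [this, Polynomial.mem_roots_map hg]
    exact hy
  rw [h2, Multiset.mem_map] at h3
  obtain ⟨x, _, hx⟩ := h3
  exact ⟨x, hx⟩

/-- The image of `padicEmbedding q` is dense. -/
theorem exists_norm_padicEmbedding_sub_lt (y : PadicAlgCl q) {ε : ℝ} (hε : 0 < ε) :
    ∃ x : AlgebraicClosure ℚ, ‖y - padicEmbedding q x‖ < ε := by
  have hint : IsIntegral ℚ_[q] y := Algebra.IsIntegral.isIntegral y
  set f := minpoly ℚ_[q] y with hf
  set n := f.natDegree with hn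
  have hn0 : 0 < n := minpoly.natDegree_pos hint
  set M : ℝ := max ‖y‖ 1 with hM
  have hM0 : 0 < M := lt_of_lt_of_le one_pos (le_max_right _ _)
  set δ : ℝ := (ε / M) ^ n / (n + 1) with hδ
  have hδ0 : 0 < δ := by positivity
  have hd : DenseRange (algebraMap ℚ ℚ_[q]) := by
    have := Padic.denseRange_ratCast q
    exact this
  obtain ⟨g, hgm, hgd, hgc⟩ :=
    Polynomial.exists_monic_and_natDegree_eq_and_norm_map_algebraMap_coeff_sub_lt hd
      (minpoly.monic hint) hδ0
  obtain ⟨b, hb1, hb2⟩ := Polynomial.exists_aroots_norm_sub_lt_of_norm_coeff_sub_lt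
    (f := f) (g := g.map (algebraMap ℚ ℚ_[q])) (a := y) hδ0 (minpoly.aeval _ _)
    (minpoly.monic hint) (hgm.map _) (by rw [Polynomial.natDegree_map]; exact hgd.symm) hgc
    (IsAlgClosed.splits _)
  have hb3 : Polynomial.aeval b g = 0 := by
    rw [Polynomial.mem_aroots, Polynomial.aeval_map_algebraMap] at hb1
    exact hb1.2
  obtain ⟨x, hx⟩ := exists_padicEmbedding_eq hgm.ne_zero hb3
  refine ⟨x, ?_⟩
  rw [hx]
  refine lt_of_lt_of_le hb2 ?_
  have h1 : ((n : ℝ) + 1) * δ = (ε / M) ^ n := by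
    rw [hδ]
    field_simp
  rw [← hn, h1, ← Real.rpow_natCast, ← Real.rpow_mul (by positivity), mul_inv_cancel₀
    (by exact_mod_cast hn0.ne'), Real.rpow_one, ← hM]
  rw [div_mul_cancel₀ _ hM0.ne']

/-- The restriction of `padicEmbedding q` to a subfield. -/
noncomputable abbrev iotaRes (K : IntermediateField ℚ (AlgebraicClosure ℚ)) : K →ₐ[ℚ] PadicAlgCl q :=
  (padicEmbedding q).comp K.val

/-- Every finite extension of `ℚ_[q]` is contained in the local field of a number field. -/
theorem exists_le_locField (k : IntermediateField ℚ_[q] (PadicAlgCl q))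
    [FiniteDimensional ℚ_[q] k] :
    ∃ F : IntermediateField ℚ (AlgebraicClosure ℚ), FiniteDimensional ℚ F ∧
      k ≤ locField (iotaRes (q := q) F) := by
  obtain ⟨α, hα⟩ := Field.exists_primitive_element ℚ_[q] k
  have hint : IsIntegral ℚ_[q] (α : PadicAlgCl q) := Algebra.IsIntegral.isIntegral _
  -- the minimal distance to the conjugates
  obtain ⟨ε, hε, hεle⟩ : ∃ ε : ℝ, 0 < ε ∧ ∀ x' : PadicAlgCl q, IsConjRoot ℚ_[q] (α : PadicAlgCl q) x' →
      (α : PadicAlgCl q) ≠ x' → ε ≤ ‖(α : PadicAlgCl q) - x'‖ := by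
    classical
    let S : Finset (PadicAlgCl q) :=
      ((minpoly ℚ_[q] (α : PadicAlgCl q)).aroots (PadicAlgCl q)).toFinset.filter
        (fun x => (α : PadicAlgCl q) ≠ x)
    by_cases hS : S.Nonempty
    · obtain ⟨z, hz, hzmin⟩ := S.exists_min_image (fun x => ‖(α : PadicAlgCl q) - x‖) hS
      refine ⟨‖(α : PadicAlgCl q) - z‖, ?_, ?_⟩
      · have := (Finset.mem_filter.mp hz).2
        exact norm_pos_iff.mpr (sub_ne_zero.mpr this)
      · intro x' hx' hne
        apply hzmin
        refine Finset.mem_filter.mpr ⟨?_, hne⟩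
        rw [Multiset.mem_toFinset]
        exact (isConjRoot_iff_mem_minpoly_aroots hint).mp hx'
    · refine ⟨1, one_pos, ?_⟩
      intro x' hx' hne
      exfalso
      apply hS
      refine ⟨x', Finset.mem_filter.mpr ⟨?_, hne⟩⟩
      rw [Multiset.mem_toFinset]
      exact (isConjRoot_iff_mem_minpoly_aroots hint).mp hx'
  obtain ⟨x, hx⟩ := exists_norm_padicEmbedding_sub_lt (α : PadicAlgCl q) hε
  have hk : (α : PadicAlgCl q) ∈ IntermediateField.adjoin ℚ_[q] {padicEmbedding q x} := by
    refine IsKrasner.krasner (K := ℚ_[q]) (L := PadicAlgCl q) ?_ (IsAlgClosed.splits _)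
      (Algebra.IsIntegral.isIntegral _) ?_
    · exact (minpoly.irreducible hint).separable
    · intro x' hx' hne
      exact lt_of_lt_of_le hx (hεle x' hx' hne)
  let F : IntermediateField ℚ (AlgebraicClosure ℚ) := IntermediateField.adjoin ℚ {x}
  have hxint : IsIntegral ℚ x := Algebra.IsIntegral.isIntegral x
  refine ⟨F, IntermediateField.adjoin.finiteDimensional hxint, ?_⟩
  have h1 : IntermediateField.adjoin ℚ_[q] {padicEmbedding q x} ≤
      locField (iotaRes (q := q) F) := by
    rw [IntermediateField.adjoin_le_iff, Set.singleton_subset_iff]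
    exact apply_mem_locField (iotaRes (q := q) F)
      ⟨x, IntermediateField.mem_adjoin_simple_self ℚ x⟩
  have h2 : k ≤ IntermediateField.adjoin ℚ_[q] {(α : PadicAlgCl q)} := by
    have h3 := congrArg (IntermediateField.map k.val) hα
    rw [IntermediateField.adjoin_map, Set.image_singleton] at h3
    intro y hy
    have h4 : y ∈ IntermediateField.map k.val ⊤ := ⟨⟨y, hy⟩, trivial, rfl⟩
    rw [← h3] at h4
    exact h4
  refine (h2.trans ?_).trans h1
  rw [IntermediateField.adjoin_le_iff, Set.singleton_subset_iff]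
  exact hk

/-- the map from the local to the global Galois group is injective. -/
theorem localGaloisToGlobal_injective : Function.Injective (localGaloisToGlobal q) := by
  rw [injective_iff_map_eq_one]
  intro σ hσ
  ext y
  -- `y` lies in a finite extension
  have hint : IsIntegral ℚ_[q] y := Algebra.IsIntegral.isIntegral y
  have : FiniteDimensional ℚ_[q] (IntermediateField.adjoin ℚ_[q] {y}) :=
    IntermediateField.adjoin.finiteDimensional hint
  obtain ⟨F, _, hF⟩ := exists_le_locField (IntermediateField.adjoin ℚ_[q] {y})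
  have h1 : y ∈ locField (iotaRes (q := q) F) :=
    hF (IntermediateField.mem_adjoin_simple_self _ _)
  have h2 : σ ∈ (locField (iotaRes (q := q) F)).fixingSubgroup := by
    rw [mem_fixingSubgroup_locField_iff F 1 (iotaRes (q := q) F) (fun x => rfl), hσ]
    simp
  rw [IntermediateField.mem_fixingSubgroup_iff] at h2
  exact h2 y h1

end krasner

end Fermat.Agent.CFT.Bridge
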