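import Fermat.Agent.CFT.Kum.Kummer
import Fermat.Agent.CFT.Bridge.LocField

/-!
# Level systems of Galois groups

* `galLevels F Ω` : the level system on `Ω ≃ₐ[F] Ω` of all subgroups containing `E.fixingSubgroup`
  for some finite `E / F`;
* `fieldLevel_galLevels` : `FieldLevel (galLevels F Ω) Ω`;
* `comap_localGaloisToGlobal_galLevels` : (Krasner) the level system on the local Galois group induced
  by the global one is `galLevels ℚ_[q] (PadicAlgCl q)`;
* `kumSetOf` : `KumSet` for subgroups fixing a primitive `p`-th root of unity.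
-/

set_option autoImplicit false

open Fermat.Agent.PT Fermat.Agent.CFT.Kum

namespace Fermat.Agent.CFT.Bridge

section gal

variable (F Ω : Type*) [Field F] [Field Ω] [Algebra F Ω] [IsGalois F Ω]

/-- The level system of the Galois group of `Ω / F`: the open subgroups. -/
def galLevels : LevelSys (Ω ≃ₐ[F] Ω) where
  carrier := {V | ∃ E : IntermediateField F Ω, FiniteDimensional F E ∧ E.fixingSubgroup ≤ V}
  top_mem' := ⟨⊥, inferInstance, le_top⟩
  inf_mem' := by
    rintro U V ⟨E, hE, hEU⟩ ⟨E', hE', hEV⟩
    refine ⟨E ⊔ E', IntermediateField.finiteDimensional_sup E E', ?_⟩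
    rw [IntermediateField.fixingSubgroup_sup]
    exact inf_le_inf hEU hEV
  mono' := by
    rintro U V ⟨E, hE, hEU⟩ h
    exact ⟨E, hE, hEU.trans h⟩
  exists_normal' := by
    rintro U ⟨E, hE, hEU⟩
    refine ⟨(IntermediateField.normalClosure F E Ω).fixingSubgroup,
      ⟨_, normalClosure.is_finiteDimensional F E Ω, le_rfl⟩,
      (IntermediateField.fixingSubgroup_antitone E.le_normalClosure).trans hEU, ?_⟩
    have : IsGalois F (IntermediateField.normalClosure F E Ω) := ⟨⟩
    infer_instance
  finiteIndex' := by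
    rintro U ⟨E, hE, hEU⟩
    have h1 : E.fixingSubgroup.FiniteIndex := ⟨by
      rw [← IntermediateField.finrank_eq_fixingSubgroup_index]
      exact Module.finrank_pos.ne'⟩
    exact Subgroup.finiteIndex_of_le hEU

variable {F Ω}

lemma mem_galLevels {V : Subgroup (Ω ≃ₐ[F] Ω)} : V ∈ galLevels F Ω ↔
    ∃ E : IntermediateField F Ω, FiniteDimensional F E ∧ E.fixingSubgroup ≤ V := Iff.rfl

lemma fixingSubgroup_mem_galLevels (E : IntermediateField F Ω) [FiniteDimensional F E] :
    E.fixingSubgroup ∈ galLevels F Ω := ⟨E, inferInstance, le_rfl⟩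

lemma stab_coe_eq (E : IntermediateField F Ω) :
    stab (Ω ≃ₐ[F] Ω) (E.toSubfield : Set Ω) = E.fixingSubgroup := by
  ext g
  rw [mem_stab, IntermediateField.mem_fixingSubgroup_iff]
  rfl

variable (F Ω) in
theorem fieldLevel_galLevels : FieldLevel (galLevels F Ω) Ω where
  exists_subfield := by
    rintro W ⟨E, hE, hEW⟩
    refine ⟨E.toSubfield, ?_, ?_⟩
    · rw [stab_coe_eq]
      exact hEW
    · rw [stab_coe_eq]
      exact fixingSubgroup_mem_galLevels E
  exists_fix := by
    intro x
    have hx : IsIntegral F x := Algebra.IsIntegral.isIntegral x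
    have : FiniteDimensional F (IntermediateField.adjoin F {x}) :=
      IntermediateField.adjoin.finiteDimensional hx
    refine ⟨_, fixingSubgroup_mem_galLevels (IntermediateField.adjoin F {x}), fun g hg => ?_⟩
    rw [IntermediateField.mem_fixingSubgroup_iff] at hg
    exact hg x (IntermediateField.mem_adjoin_simple_self F x)

/-- Every level subgroup containing... : `U ∈ galLevels` is the fixing subgroup of its fixed field,
which is finite. -/
lemma fixedField_finite_of_mem {U : Subgroup (Ω ≃ₐ[F] Ω)} (hU : U ∈ galLevels F Ω) :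
    FiniteDimensional F (IntermediateField.fixedField U) := by
  obtain ⟨E, hE, hEU⟩ := hU
  have h1 : IntermediateField.fixedField U ≤ E := by
    have h2 := IntermediateField.fixedField_antitone hEU
    rwa [InfiniteGalois.fixedField_fixingSubgroup] at h2
  exact FiniteDimensional.of_injective (IntermediateField.inclusion h1).toLinearMap
    (IntermediateField.inclusion_injective h1)

lemma fixingSubgroup_fixedField_of_mem {U : Subgroup (Ω ≃ₐ[F] Ω)} (hU : U ∈ galLevels F Ω) :
    (IntermediateField.fixedField U).fixingSubgroup = U := by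
  obtain ⟨E, hE, hEU⟩ := id hU
  have hopen : IsOpen (U : Set (Ω ≃ₐ[F] Ω)) :=
    Subgroup.isOpen_mono hEU (IntermediateField.fixingSubgroup_isOpen E)
  exact InfiniteGalois.fixingSubgroup_fixedField
    ⟨U, Subgroup.isClosed_of_isOpen U hopen⟩

end gal

section krasner

variable (q : ℕ) [hq : Fact q.Prime]

lemma comap_fixingSubgroup_eq (F : IntermediateField ℚ (AlgebraicClosure ℚ)) :
    F.fixingSubgroup.comap (localGaloisToGlobal q) =
      (locField (iotaRes (q := q) F)).fixingSubgroup := by
  ext h
  rw [mem_fixingSubgroup_locField_iff F 1 (iotaRes F) (fun x => rfl) h, Subgroup.mem_comap]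
  simp

/-- **Krasner**: the level system on the local Galois group induced by the global one. -/
theorem comap_localGaloisToGlobal_galLevels :
    (galLevels ℚ (AlgebraicClosure ℚ)).comap (localGaloisToGlobal q) =
      galLevels ℚ_[q] (PadicAlgCl q) := by
  have h : ∀ V, V ∈ ((galLevels ℚ (AlgebraicClosure ℚ)).comap (localGaloisToGlobal q)).carrier ↔
      V ∈ (galLevels ℚ_[q] (PadicAlgCl q)).carrier := by
    intro V
    constructor
    · rintro ⟨W, ⟨F, hF, hFW⟩, hWV⟩
      have : NumberField F := ⟨⟩
      refine ⟨locField (iotaRes (q := q) F), inferInstance, ?_⟩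
      rw [← comap_fixingSubgroup_eq]
      exact (Subgroup.comap_mono hFW).trans hWV
    · rintro ⟨k, hk, hkV⟩
      obtain ⟨F, hF, hkF⟩ := exists_le_locField k
      refine ⟨F.fixingSubgroup, fixingSubgroup_mem_galLevels F, ?_⟩
      rw [comap_fixingSubgroup_eq]
      exact (IntermediateField.fixingSubgroup_antitone hkF).trans hkV
  cases h1 : (galLevels ℚ (AlgebraicClosure ℚ)).comap (localGaloisToGlobal q)
  cases h2 : galLevels ℚ_[q] (PadicAlgCl q)
  rw [h1, h2] at h
  congr 1
  exact Set.ext h

end krasner

section kumset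

variable {F Ω : Type*} [Field F] [Field Ω] [Algebra F Ω] [IsGalois F Ω]

/-- `KumSet` for a subgroup of a Galois group fixing a primitive `p`-th root of unity. -/
noncomputable def kumSetOf [IsAlgClosed Ω] {p : ℕ} (hp : 0 < p) (U : Subgroup (Ω ≃ₐ[F] Ω))
    {ζ : Ω} (hζ : IsPrimitiveRoot ζ p) (hU : ∀ g ∈ U, g ζ = ζ) :
    KumSet ((galLevels F Ω).restrict U) Ω p where
  ζ := Units.mk0 ζ (hζ.ne_zero hp.ne')
  prim := IsPrimitiveRoot.coe_units_iff.mp hζ
  fixed := by
    rintro ⟨g, hg⟩
    rw [uact_eq_iff]
    exact hU g hg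
  level := (fieldLevel_galLevels F Ω).restrict U
  exists_root := by
    intro x
    obtain ⟨y, hy⟩ := IsAlgClosed.exists_pow_nat_eq (x : Ω) hp
    have hy0 : y ≠ 0 := by
      rintro rfl
      rw [zero_pow hp.ne'] at hy
      exact x.ne_zero hy.symm
    exact ⟨Units.mk0 y hy0, Units.ext hy⟩

end kumset

end Fermat.Agent.CFT.Bridge
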