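import Fermat.Agent.CFT.Bridge.Norm
import Fermat.Agent.CFT.Local.NormIndex
import Fermat.Agent.CFT.Global.Kummer
import Fermat.Agent.CFT.Global.KummerExt

/-!
# Local facts needed for the Hilbert symbol

For `l ⊆ PadicAlgCl q` finite over `ℚ_[q]` containing a primitive `p`-th root of unity:

* `exists_not_isNormFrom` : if `a` is not a `p`-th power there is `x` which is not a norm from
  `l[X]/(X^p - a)`;
* `exists_eq_pow_mul_pow_of_unit` : for `q ≠ p`, the units modulo `p`-th powers are cyclic of order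
  `p`.
-/

set_option autoImplicit false

open Polynomial IntermediateField

namespace Fermat.Agent.CFT.Bridge

variable {q : ℕ} [hq : Fact q.Prime]

theorem exists_not_isNormFrom (l : Type) [Field l] [Algebra ℚ_[q] l] [FiniteDimensional ℚ_[q] l]
    {p : ℕ} (hp : p.Prime) {ξ : l} (hξ : IsPrimitiveRoot ξ p) {a : lˣ}
    (ha : ∀ b : lˣ, b ^ p ≠ a) : ∃ x : lˣ, ¬ Global.IsNormFrom p a x := by
  have Hirr := Global.irreducible_of_not_pow hp ha
  have : Fact (Irreducible (X ^ p - C (a : l))) := ⟨Hirr⟩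
  have hroot : (AdjoinRoot.root (X ^ p - C (a : l)) : Global.Rad p a) ^ p =
      algebraMap l (Global.Rad p a) (a : l) := by
    have h := AdjoinRoot.eval₂_root (X ^ p - C (a : l))
    rw [eval₂_sub, eval₂_X_pow, eval₂_C, sub_eq_zero] at h
    exact h
  have hfin : Module.Finite l (Global.Rad p a) := (AdjoinRoot.powerBasis Hirr.ne_zero).finite
  have htop : (IntermediateField.adjoin l {(AdjoinRoot.root (X ^ p - C (a : l)) :
      Global.Rad p a)}) = ⊤ := by
    have h : Algebra.adjoin l {(AdjoinRoot.root (X ^ p - C (a : l)) : Global.Rad p a)} = ⊤ :=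
      AdjoinRoot.adjoinRoot_eq_top
    rw [IntermediateField.adjoin_eq_top_iff_of_isAlgebraic]
    · exact h
    · exact fun x _ => Algebra.IsAlgebraic.isAlgebraic x
  have ha' : ∀ b : l, b ^ p ≠ (a : l) := by
    intro b hb
    have hb0 : b ≠ 0 := by
      rintro rfl
      rw [zero_pow hp.ne_zero] at hb
      exact a.ne_zero hb.symm
    exact ha (Units.mk0 b hb0) (Units.ext hb)
  have hfr := KummerExt.finrank_eq hp ha' hroot htop
  obtain ⟨hgal, -⟩ := KummerExt.exists_gen hp hξ ha' hroot htop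
  have : FiniteDimensional ℚ_[q] (Global.Rad p a) := FiniteDimensional.trans ℚ_[q] l _
  have hidx := CFTLocal.norm_index_local q l (Global.Rad p a) p hp hfr
  by_contra! hall
  have htop' : (CFTLocal.normUnits l (Global.Rad p a)).range = ⊤ := by
    rw [eq_top_iff]
    rintro x -
    obtain ⟨z, hz⟩ := hall x
    have hz0 : z ≠ 0 := by
      rintro rfl
      rw [Algebra.norm_zero] at hz
      exact x.ne_zero hz.symm
    exact ⟨Units.mk0 z hz0, Units.ext hz⟩
  rw [htop', Subgroup.index_top] at hidx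
  exact hp.one_lt.ne hidx

section units

variable (l : IntermediateField ℚ_[q] (PadicAlgCl q))

/-- Norms of elements of `l` are discrete. -/
theorem exists_norm_pow_eq_zpow (x : l) (hx : x ≠ 0) :
    ∃ m : ℤ, ‖(x : PadicAlgCl q)‖ ^ (Module.finrank ℚ_[q] l) = (q : ℝ) ^ m := by
  have hx0 : (x : PadicAlgCl q) ≠ 0 := by simpa using hx
  have halg : IsIntegral ℚ_[q] (x : PadicAlgCl q) := Algebra.IsIntegral.isIntegral _
  set n := (minpoly ℚ_[q] (x : PadicAlgCl q)).natDegree with hn
  have hn0 : 0 < n := minpoly.natDegree_pos halg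
  have h1 : ‖(x : PadicAlgCl q)‖ =
      ‖(minpoly ℚ_[q] (x : PadicAlgCl q)).coeff 0‖ ^ (1 / n : ℝ) := by
    rw [← PadicAlgCl.spectralNorm_eq]
    exact spectralNorm.spectralNorm_eq_norm_coeff_zero_rpow _ _ (x : PadicAlgCl q)
  have hc0 : (minpoly ℚ_[q] (x : PadicAlgCl q)).coeff 0 ≠ 0 :=
    minpoly.coeff_zero_ne_zero halg hx0
  have hdvd : n ∣ Module.finrank ℚ_[q] l := by
    have h2 : minpoly ℚ_[q] (x : PadicAlgCl q) = minpoly ℚ_[q] x :=
      minpoly.algebraMap_eq (B' := PadicAlgCl q) (algebraMap l (PadicAlgCl q)).injective x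
    rw [hn, h2]
    exact minpoly.degree_dvd (Algebra.IsIntegral.isIntegral x)
  obtain ⟨d, hd⟩ := hdvd
  refine ⟨-((minpoly ℚ_[q] (x : PadicAlgCl q)).coeff 0).valuation * d, ?_⟩
  rw [hd, pow_mul, zpow_mul, zpow_natCast]
  congr 1
  rw [h1, ← Real.rpow_natCast, ← Real.rpow_mul (norm_nonneg _), one_div,
    inv_mul_cancel₀ (by exact_mod_cast hn0.ne'), Real.rpow_one,
    Padic.norm_eq_zpow_neg_valuation hc0]

/-- The exponent of the norm. -/
noncomputable def normValFun (x : lˣ) : ℤ := (exists_norm_pow_eq_zpow l (x : l) x.ne_zero).choose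

lemma norm_pow_eq_normValFun (x : lˣ) :
    ‖((x : l) : PadicAlgCl q)‖ ^ (Module.finrank ℚ_[q] l) = (q : ℝ) ^ (normValFun l x) :=
  (exists_norm_pow_eq_zpow l (x : l) x.ne_zero).choose_spec

variable [FiniteDimensional ℚ_[q] l]

/-- The normalised valuation: `‖x‖ ^ [l : ℚ_q] = q ^ (normVal x)`. -/
noncomputable def normVal : lˣ →* Multiplicative ℤ :=
  MonoidHom.mk' (fun x => Multiplicative.ofAdd (normValFun l x)) (by
    intro x y
    have hx := norm_pow_eq_normValFun l x
    have hy := norm_pow_eq_normValFun l y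
    have hxy := norm_pow_eq_normValFun l (x * y)
    rw [Units.val_mul, MulMemClass.coe_mul, norm_mul, mul_pow, hx, hy,
      ← zpow_add₀ (q_pos (q := q)).ne'] at hxy
    have h3 := zpow_right_injective₀ (q_pos (q := q)) (one_lt_q (q := q)).ne' hxy
    rw [← ofAdd_add]
    exact congrArg Multiplicative.ofAdd h3.symm)

lemma norm_pow_eq_normVal (x : lˣ) :
    ‖((x : l) : PadicAlgCl q)‖ ^ (Module.finrank ℚ_[q] l) = (q : ℝ) ^ (normVal l x).toAdd :=
  norm_pow_eq_normValFun l x

lemma normVal_eq_one_iff (x : lˣ) : normVal l x = 1 ↔ ‖((x : l) : PadicAlgCl q)‖ = 1 := by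
  have h := norm_pow_eq_normVal l x
  constructor
  · intro h1
    rw [h1, toAdd_one, zpow_zero] at h
    exact (pow_eq_one_iff_of_nonneg (norm_nonneg _) Module.finrank_pos.ne').mp h
  · intro h1
    rw [h1, one_pow] at h
    have h2 : (q : ℝ) ^ (0 : ℤ) = (q : ℝ) ^ (normVal l x).toAdd := by rw [zpow_zero]; exact h
    have h3 := zpow_right_injective₀ (q_pos (q := q)) (one_lt_q (q := q)).ne' h2
    exact Multiplicative.toAdd.injective h3.symm

lemma exists_normVal_ne_one : ∃ x : lˣ, normVal l x ≠ 1 := by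
  have hq0 : (q : l) ≠ 0 := by
    have : CharZero l := charZero_of_injective_algebraMap (algebraMap ℚ_[q] l).injective
    exact Nat.cast_ne_zero.mpr hq.out.ne_zero
  refine ⟨Units.mk0 (q : l) hq0, ?_⟩
  rw [Ne, normVal_eq_one_iff, Units.val_mk0]
  have h1 : (((q : l)) : PadicAlgCl q) = (q : PadicAlgCl q) := map_natCast (algebraMap l _) q
  rw [h1, norm_natCast_q]
  exact (inv_lt_one_of_one_lt₀ (one_lt_q q)).ne

/-- There is an element of `lˣ` which is not a unit times a `p`-th power. -/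
theorem exists_norm_not_pow {p : ℕ} (hp : 1 < p) :
    ∃ x : lˣ, ∀ u y : lˣ, ‖((u : l) : PadicAlgCl q)‖ = 1 → x ≠ u * y ^ p := by
  classical
  obtain ⟨x₀, hx₀⟩ := exists_normVal_ne_one l
  have hex : ∃ n : ℕ, 0 < n ∧ ∃ x : lˣ, (normVal l x).toAdd.natAbs = n :=
    ⟨_, Int.natAbs_pos.mpr (fun h => hx₀ (Multiplicative.toAdd.injective h)), x₀, rfl⟩
  obtain ⟨hpos, x, hx⟩ := Nat.find_spec hex
  refine ⟨x, fun u y hu hxy => ?_⟩
  have h1 : (normVal l x).toAdd = p * (normVal l y).toAdd := by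
    rw [hxy, map_mul, map_pow, (normVal_eq_one_iff l u).mpr hu, one_mul, toAdd_pow, nsmul_eq_mul]
  rw [h1, Int.natAbs_mul, Int.natAbs_natCast] at hx
  have h2 : 0 < (normVal l y).toAdd.natAbs := by
    rcases Nat.eq_zero_or_pos (normVal l y).toAdd.natAbs with h | h
    · rw [h, mul_zero] at hx
      omega
    · exact h
  have h3 := Nat.find_min' hex ⟨h2, y, rfl⟩
  nlinarith

/-- For `q ≠ p`, the group of units modulo `p`-th powers is cyclic of order `p`. -/
theorem exists_eq_pow_mul_pow_of_unit {p : ℕ} (hp : p.Prime) (hqp : q ≠ p) {ξ : l}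
    (hξ : IsPrimitiveRoot ξ p) {a x : lˣ} (ha : ‖((a : l) : PadicAlgCl q)‖ = 1)
    (hx : ‖((x : l) : PadicAlgCl q)‖ = 1) (hap : ∀ b : lˣ, b ^ p ≠ a) :
    ∃ (i : ℤ) (y : lˣ), x = a ^ i * y ^ p := by
  classical
  have : NeZero p := ⟨hp.ne_zero⟩
  set P : Subgroup lˣ := (powMonoidHom p : lˣ →* lˣ).range with hP
  have hker : Nat.card (powMonoidHom p : lˣ →* lˣ).ker = p := by
    have h1 : (powMonoidHom p : lˣ →* lˣ).ker = rootsOfUnity p l := by
      ext u
      rw [MonoidHom.mem_ker, powMonoidHom_apply, mem_rootsOfUnity]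
    rw [h1]
    exact hξ.card_rootsOfUnity
  have hPidx : P.index = p * p := by
    rw [hP, CFTLocal.index_pow_finite q l p hp, if_neg hqp.symm, one_mul, hker]
  let W : Subgroup lˣ := (normVal l).ker ⊔ P
  let A : Subgroup lˣ := Subgroup.zpowers a ⊔ P
  have haW : a ∈ (normVal l).ker := (normVal_eq_one_iff l a).mpr ha
  have hxW : x ∈ W := Subgroup.mem_sup_left ((normVal_eq_one_iff l x).mpr hx)
  have hAW : A ≤ W := sup_le_sup_right ((Subgroup.zpowers_le).mpr haW) _
  have hPA : P ≤ A := le_sup_right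
  have hWtop : W ≠ ⊤ := by
    intro h
    obtain ⟨x, hx⟩ := exists_norm_not_pow l hp.one_lt
    have hxW : x ∈ W := by rw [h]; trivial
    obtain ⟨u, hu, v, ⟨y, rfl⟩, huv⟩ := Subgroup.mem_sup.mp hxW
    exact hx u y ((normVal_eq_one_iff l u).mp hu) huv.symm
  have hPA' : P ≠ A := by
    intro h
    have h1 : a ∈ P := by rw [h]; exact Subgroup.mem_sup_left (Subgroup.mem_zpowers a)
    obtain ⟨b, hb⟩ := h1
    exact hap b hb
  have hPne : P.index ≠ 0 := by rw [hPidx]; exact mul_ne_zero hp.ne_zero hp.ne_zero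
  -- indices
  have hAidx : A.index = p := by
    have h1 : A.index ∣ p * p := by rw [← hPidx]; exact Subgroup.index_dvd_of_le hPA
    rw [← pow_two, Nat.dvd_prime_pow hp] at h1
    obtain ⟨k, hk, hk'⟩ := h1
    have hA1 : A.index ≠ 1 := by
      intro h
      rw [Subgroup.index_eq_one] at h
      exact hWtop (top_le_iff.mp (h ▸ hAW))
    have hA2 : A.index ≠ p ^ 2 := by
      intro h
      have h3 : P.relIndex A * A.index = P.index := Subgroup.relIndex_mul_index hPA
      rw [h, hPidx, pow_two] at h3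
      have h4 : P.relIndex A = 1 := by
        have : 0 < p * p := Nat.mul_pos hp.pos hp.pos
        exact Nat.eq_of_mul_eq_mul_right this (by rw [h3, one_mul])
      rw [Subgroup.relIndex_eq_one] at h4
      exact hPA' (le_antisymm hPA h4)
    interval_cases k
    · simp only [pow_zero] at hk'; exact absurd hk' hA1
    · simpa using hk'
    · exact absurd hk' hA2
  have hWA : W ≤ A := by
    have h1 : A.relIndex W * W.index = A.index := Subgroup.relIndex_mul_index hAW
    rw [hAidx] at h1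
    have hW1 : W.index ≠ 1 := by rwa [Ne, Subgroup.index_eq_one]
    have h2 : W.index = p := by
      rcases (Nat.dvd_prime hp).mp (Dvd.intro_left _ h1) with h | h
      · exact absurd h hW1
      · exact h
    rw [h2] at h1
    have h3 : A.relIndex W = 1 := Nat.eq_of_mul_eq_mul_right hp.pos (by rw [h1, one_mul])
    rwa [Subgroup.relIndex_eq_one] at h3
  obtain ⟨u, ⟨i, rfl⟩, v, ⟨y, rfl⟩, huv⟩ := Subgroup.mem_sup.mp (hWA hxW)
  exact ⟨i, y, huv.symm⟩

end units

end Fermat.Agent.CFT.Bridge
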