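import Mathlib.RingTheory.AdjoinRoot
import Mathlib.RingTheory.Norm.Basic
import Mathlib.LinearAlgebra.Charpoly.BaseChange
import Fermat.Agent.CFT.Global.Defs

/-!
# Norms and base change for `K[X]/(f)`
-/

set_option autoImplicit false

namespace Fermat.Agent.CFT.Bridge

open Polynomial TensorProduct

section norm

variable {K L : Type*} [Field K] [Field L] [Algebra K L] (f : K[X])

lemma eval₂_ofId_root :
    f.eval₂ ((Algebra.ofId K (AdjoinRoot (f.map (algebraMap K L)))) :
      K →+* AdjoinRoot (f.map (algebraMap K L))) (AdjoinRoot.root (f.map (algebraMap K L))) = 0 := by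
  have h := AdjoinRoot.eval₂_root (f.map (algebraMap K L))
  rw [eval₂_map] at h
  exact h

/-- The comparison map `L ⊗ K[X]/(f) → L[X]/(f)`. -/
noncomputable def adjoinRootComp :
    L ⊗[K] AdjoinRoot f →ₐ[L] AdjoinRoot (f.map (algebraMap K L)) :=
  Algebra.TensorProduct.lift (Algebra.ofId L _)
    (AdjoinRoot.liftAlgHom f (Algebra.ofId K _) (AdjoinRoot.root (f.map (algebraMap K L)))
      (eval₂_ofId_root f))
    (fun _ _ => Commute.all _ _)

lemma adjoinRootComp_surjective : Function.Surjective (adjoinRootComp (L := L) f) := by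
  have h : (adjoinRootComp (L := L) f).range = ⊤ := by
    rw [eq_top_iff, ← AdjoinRoot.adjoinRoot_eq_top (f := f.map (algebraMap K L)),
      Algebra.adjoin_le_iff, Set.singleton_subset_iff]
    refine ⟨1 ⊗ₜ AdjoinRoot.root f, ?_⟩
    change adjoinRootComp (L := L) f (1 ⊗ₜ AdjoinRoot.root f) = _
    rw [adjoinRootComp, Algebra.TensorProduct.lift_tmul, map_one, one_mul]
    exact AdjoinRoot.liftAlgHom_root ..
  intro y
  have hy : y ∈ (adjoinRootComp (L := L) f).range := by rw [h]; trivial
  exact hy

lemma adjoinRootComp_bijective (hf : f ≠ 0) :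
    Function.Bijective (adjoinRootComp (L := L) f) := by
  have hf' : f.map (algebraMap K L) ≠ 0 := (map_ne_zero_iff (mapRingHom (algebraMap K L))
    (map_injective _ (algebraMap K L).injective)).mpr hf
  have : FiniteDimensional L (AdjoinRoot (f.map (algebraMap K L))) :=
    (AdjoinRoot.powerBasis hf').finite
  have : FiniteDimensional K (AdjoinRoot f) := (AdjoinRoot.powerBasis hf).finite
  refine ⟨?_, adjoinRootComp_surjective f⟩
  have hs := adjoinRootComp_surjective (L := L) f
  have hd : Module.finrank L (L ⊗[K] AdjoinRoot f) =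
      Module.finrank L (AdjoinRoot (f.map (algebraMap K L))) := by
    rw [Module.finrank_baseChange, (AdjoinRoot.powerBasis hf).finrank,
      (AdjoinRoot.powerBasis hf').finrank, AdjoinRoot.powerBasis_dim, AdjoinRoot.powerBasis_dim,
      natDegree_map]
  exact (LinearMap.injective_iff_surjective_of_finrank_eq_finrank hd
    (f := (adjoinRootComp (L := L) f).toLinearMap)).mpr hs

lemma norm_baseChange_tmul (A : Type*) [Ring A] [Algebra K A] [Module.Finite K A] (z : A) :
    Algebra.norm L ((1 : L) ⊗ₜ[K] z) = algebraMap K L (Algebra.norm K z) := by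
  rw [Algebra.norm_apply, Algebra.norm_apply, ← LinearMap.det_baseChange]
  congr 1
  ext a
  simp

theorem exists_norm_adjoinRoot_map (hf : f ≠ 0) (z : AdjoinRoot f) :
    ∃ z' : AdjoinRoot (f.map (algebraMap K L)),
      Algebra.norm L z' = algebraMap K L (Algebra.norm K z) := by
  have : FiniteDimensional K (AdjoinRoot f) := (AdjoinRoot.powerBasis hf).finite
  let e := AlgEquiv.ofBijective _ (adjoinRootComp_bijective (L := L) f hf)
  refine ⟨e (1 ⊗ₜ z), ?_⟩
  rw [← norm_baseChange_tmul, Algebra.norm_eq_of_algEquiv]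

end norm

section isNormFrom

variable {K L : Type*} [Field K] [Field L] (φ : K →+* L)

theorem isNormFrom_map {p : ℕ} (hp : p ≠ 0) {a x : Kˣ} (h : Global.IsNormFrom p a x) :
    Global.IsNormFrom p (Units.map φ.toMonoidHom a) (Units.map φ.toMonoidHom x) := by
  let _ := φ.toAlgebra
  obtain ⟨z, hz⟩ := h
  have hf : (X ^ p - C (a : K) : K[X]) ≠ 0 := X_pow_sub_C_ne_zero (Nat.pos_of_ne_zero hp) _
  have he : (X ^ p - C (a : K) : K[X]).map (algebraMap K L) =
      X ^ p - C ((Units.map φ.toMonoidHom a : Lˣ) : L) := by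
    rw [Polynomial.map_sub, Polynomial.map_pow, map_X, map_C]
    rfl
  have key := exists_norm_adjoinRoot_map (L := L) _ hf z
  rw [he, hz] at key
  exact key

end isNormFrom

end Fermat.Agent.CFT.Bridge
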