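import Fermat.Agent.CFT.Bridge.LocPow
import Fermat.Agent.CFT.Bridge.NormBase

/-!
# From symbols on local fields `l ⊆ PadicAlgCl q` to `LocalSymbols p K`
-/

set_option autoImplicit false

open IsDedekindDomain NumberField WithZero

namespace Fermat.Agent.CFT.Bridge

/-- A "Hilbert symbol" with values in `ZMod p` on a field `l` with `ℚ_[q] ⊆ l ⊆ PadicAlgCl q`. -/
structure LocSym (p q : ℕ) [Fact q.Prime] (l : IntermediateField ℚ_[q] (PadicAlgCl q)) where
  /-- the symbol -/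
  sym : lˣ →* lˣ →* Multiplicative (ZMod p)
  /-- nondegeneracy -/
  mem_pow_iff : ∀ a : lˣ, (∃ b : l, b ^ p = (a : l)) ↔ ∀ x, sym a x = 1
  /-- skew-symmetry -/
  skew : ∀ a b, sym a b * sym b a = 1
  /-- norms have trivial symbol -/
  norm_mem : ∀ a x, Global.IsNormFrom p a x → sym a x = 1
  /-- units pair trivially if `q ≠ p` -/
  unit_mem : q ≠ p → ∀ a x : lˣ, ‖(a : l)‖ = 1 → ‖(x : l)‖ = 1 → sym a x = 1

section

variable {q : ℕ} [hq : Fact q.Prime] {K : Type*} [Field K] [NumberField K]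

/-- The map `Kˣ → (locField τ)ˣ`. -/
noncomputable def toLocU (τ : K →ₐ[ℚ] PadicAlgCl q) : Kˣ →* (locField τ)ˣ :=
  Units.map (toLoc τ).toRingHom.toMonoidHom

@[simp] lemma coe_toLocU (τ : K →ₐ[ℚ] PadicAlgCl q) (x : Kˣ) :
    ((toLocU τ x : (locField τ)ˣ) : locField τ) = toLoc τ x := rfl

lemma coe_coe_toLocU (τ : K →ₐ[ℚ] PadicAlgCl q) (x : Kˣ) :
    (((toLocU τ x : (locField τ)ˣ) : locField τ) : PadicAlgCl q) = τ x := rfl

theorem exists_eq_toLocU_mul_pow {p : ℕ} (hp : p ≠ 0) (τ : K →ₐ[ℚ] PadicAlgCl q)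
    (x : (locField τ)ˣ) : ∃ (y : Kˣ) (b : (locField τ)ˣ), x = toLocU τ y * b ^ p :=
  exists_eq_toLoc_mul_pow hp τ x

lemma isNormFrom_toLocU {p : ℕ} (hp : p ≠ 0) (τ : K →ₐ[ℚ] PadicAlgCl q) {a x : Kˣ}
    (h : Global.IsNormFrom p a x) : Global.IsNormFrom p (toLocU τ a) (toLocU τ x) :=
  isNormFrom_map (toLoc τ).toRingHom hp h

lemma norm_toLocU_eq_one (τ : K →ₐ[ℚ] PadicAlgCl q) {x : Kˣ}
    (hx : SUnits.ord (placeOf τ) x = 0) : ‖((toLocU τ x : (locField τ)ˣ) : locField τ)‖ = 1 := by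
  have h1 : (placeOf τ).valuation K (x : K) = 1 := by
    rw [SUnits.valuation_eq_exp_neg_ord, hx, neg_zero, exp_zero]
  have h2 : (placeOf τ).valuation K ((x⁻¹ : Kˣ) : K) = 1 := by
    rw [Units.val_inv_eq_inv_val, map_inv₀, h1, inv_one]
  have h3 := (norm_le_one_iff τ (x : K)).mpr h1.le
  have h4 := (norm_le_one_iff τ ((x⁻¹ : Kˣ) : K)).mpr h2.le
  have h5 : (0 : ℝ) < ‖τ (x : K)‖ := norm_pos_iff.mpr ((map_ne_zero _).mpr x.ne_zero)
  change ‖τ (x : K)‖ = 1
  refine le_antisymm h3 ?_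
  rw [Units.val_inv_eq_inv_val, map_inv₀, norm_inv] at h4
  exact (inv_le_one₀ h5).mp h4

lemma q_ne_of_natCast_notMem {p : ℕ} (τ : K →ₐ[ℚ] PadicAlgCl q)
    (h : (p : 𝓞 K) ∉ (placeOf τ).asIdeal) : q ≠ p := by
  rintro rfl
  exact h (q_mem_placeOf τ)

end

section

variable (p : ℕ) (K : Type*) [Field K] [NumberField K]

/-- The data of a symbol at the place `v`: an embedding of `K` into some `PadicAlgCl q` inducing
`v` and a symbol on the completion. -/
structure LocSymAt (v : HeightOneSpectrum (𝓞 K)) where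
  /-- the residue characteristic -/
  q : ℕ
  /-- it is prime -/
  hq : Fact q.Prime
  /-- the embedding -/
  τ : K →ₐ[ℚ] PadicAlgCl q
  /-- the embedding induces `v` -/
  hτ : placeOf τ = v
  /-- the symbol -/
  s : LocSym p q (locField τ)

end

section

variable {p : ℕ} {K : Type*} [Field K] [NumberField K]

/-- The symbol on `Kˣ` deduced from a local symbol. -/
noncomputable def LocSymAt.symK {v : HeightOneSpectrum (𝓞 K)} (D : LocSymAt p K v) :
    Kˣ →* Kˣ →* Multiplicative (ZMod p) :=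
  letI := D.hq
  (D.s.sym.compl₂ (toLocU D.τ)).comp (toLocU D.τ)

lemma LocSymAt.symK_apply {v : HeightOneSpectrum (𝓞 K)} (D : LocSymAt p K v) (a x : Kˣ) :
    D.symK a x = letI := D.hq; D.s.sym (toLocU D.τ a) (toLocU D.τ x) := rfl

/-- `LocalSymbols` from local data. -/
noncomputable def localSymbols (hp : p ≠ 0) (D : ∀ v : HeightOneSpectrum (𝓞 K), LocSymAt p K v) :
    Global.LocalSymbols p K where
  sym v := (D v).symK
  mem_locPow_iff := by
    intro v a
    obtain ⟨q, hq, τ, rfl, s⟩ := D v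
    rw [mem_locPow_placeOf_iff hp]
    change _ ↔ ∀ x : Kˣ, s.sym (toLocU τ a) (toLocU τ x) = 1
    rw [← coe_toLocU, s.mem_pow_iff]
    constructor
    · exact fun h x => h _
    · intro h x
      obtain ⟨y, b, rfl⟩ := exists_eq_toLocU_mul_pow hp τ x
      rw [map_mul, h, one_mul, map_pow]
      exact Multiplicative.toAdd.injective (by
        rw [toAdd_pow, toAdd_one, nsmul_eq_mul, ZMod.natCast_self, zero_mul])
  skew := by
    intro v a b
    obtain ⟨q, hq, τ, rfl, s⟩ := D v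
    exact s.skew _ _
  norm_mem := by
    intro v a x h
    obtain ⟨q, hq, τ, rfl, s⟩ := D v
    exact s.norm_mem _ _ (isNormFrom_toLocU hp τ h)
  unit_mem := by
    intro v hv a x ha hx
    obtain ⟨q, hq, τ, rfl, s⟩ := D v
    exact s.unit_mem (q_ne_of_natCast_notMem τ hv) _ _ (norm_toLocU_eq_one τ ha)
      (norm_toLocU_eq_one τ hx)

/-- Every place of a number field comes from an embedding into some `PadicAlgCl q`. -/
theorem exists_prime_placeOf_eq (v : HeightOneSpectrum (𝓞 K)) :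
    ∃ (q : ℕ) (_ : Fact q.Prime) (τ : K →ₐ[ℚ] PadicAlgCl q), placeOf τ = v := by
  have := v.isPrime
  have h0 : v.asIdeal.under ℤ ≠ ⊥ := Ideal.IsIntegral.comap_ne_bot ℤ v.ne_bot
  have h1 : (v.asIdeal.under ℤ).IsPrime := inferInstance
  obtain ⟨n, hn⟩ := (IsPrincipalIdealRing.principal (v.asIdeal.under ℤ)).principal
  rw [Ideal.submodule_span_eq] at hn
  have hn0 : n ≠ 0 := by
    rintro rfl
    exact h0 (by rw [hn, Ideal.span_singleton_eq_bot])
  have hnp : Prime n := by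
    rw [hn, Ideal.span_singleton_prime hn0] at h1
    exact h1
  have hq : (n.natAbs).Prime := Int.prime_iff_natAbs_prime.mp hnp
  have hmem : ((n.natAbs : ℕ) : 𝓞 K) ∈ v.asIdeal := by
    have h2 : (n : ℤ) ∈ v.asIdeal.under ℤ := by rw [hn]; exact Ideal.mem_span_singleton_self n
    have h3 : ((n.natAbs : ℕ) : ℤ) ∈ v.asIdeal.under ℤ := by
      rcases Int.natAbs_eq n with h | h
      · rwa [← h]
      · rw [h] at h2
        exact (Ideal.neg_mem_iff _).mp h2
    have h4 : algebraMap ℤ (𝓞 K) ((n.natAbs : ℕ) : ℤ) ∈ v.asIdeal := h3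
    rwa [eq_intCast, Int.cast_natCast] at h4
  have : Fact (n.natAbs).Prime := ⟨hq⟩
  obtain ⟨τ, hτ⟩ := exists_placeOf_eq (q := n.natAbs) v hmem
  exact ⟨_, ⟨hq⟩, τ, hτ⟩

theorem nonempty_localSymbols (hp : p ≠ 0) {ζ : K} (hζ : IsPrimitiveRoot ζ p)
    (H : ∀ (q : ℕ) [Fact q.Prime] (l : IntermediateField ℚ_[q] (PadicAlgCl q))
      [FiniteDimensional ℚ_[q] l] (ξ : l), IsPrimitiveRoot ξ p → Nonempty (LocSym p q l)) :
    Nonempty (Global.LocalSymbols p K) := by
  refine ⟨localSymbols hp fun v => Classical.choice ?_⟩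
  obtain ⟨q, hq, τ, hτ⟩ := exists_prime_placeOf_eq v
  obtain ⟨s⟩ := H q (locField τ) (toLoc τ ζ) (hζ.map_of_injective (toLoc τ).toRingHom.injective)
  exact ⟨⟨q, hq, τ, hτ, s⟩⟩

end

end Fermat.Agent.CFT.Bridge
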