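import Fermat.Agent.CFT.Bridge.Chars
import Fermat.Agent.CFT.Bridge.Levels
import Fermat.Agent.CFT.Bridge.Symbols
import Fermat.Agent.CFT.Bridge.LocNorm

/-!
# The local symbol from an injective functional on `H²(G_l, ZMod p)`

`l ⊆ PadicAlgCl q` finite over `ℚ_[q]`, `ξ ∈ l` a primitive `p`-th root of unity, `p` odd:
`locSymOf` is the `LocSym` `(a, x) ↦ inv (κ_a ∪ κ_x)`.
-/

set_option autoImplicit false

open Fermat.Agent.PT Fermat.Agent.CFT.Kum Fermat.Agent.CFT.Kum.KumSet

namespace Fermat.Agent.CFT.Bridge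

section fixed

variable {F Ω : Type*} [Field F] [Field Ω] [Algebra F Ω] [IsGalois F Ω]

lemma isFixed_fixingSubgroup (l : IntermediateField F Ω) :
    IsFixed l.fixingSubgroup (Ω := Ω) l := by
  intro x
  constructor
  · intro h
    have h1 : x ∈ IntermediateField.fixedField l.fixingSubgroup := by
      rw [IntermediateField.mem_fixedField_iff]
      intro g hg
      exact h ⟨g, hg⟩
    rw [InfiniteGalois.fixedField_fixingSubgroup] at h1
    exact ⟨⟨x, h1⟩, rfl⟩
  · rintro ⟨y, rfl⟩ ⟨g, hg⟩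
    exact (IntermediateField.mem_fixingSubgroup_iff _ _).mp hg _ y.2

/-- The level system of `Gal(Ω / l)`. -/
abbrev lev (l : IntermediateField F Ω) : LevelSys l.fixingSubgroup :=
  (galLevels F Ω).restrict l.fixingSubgroup

/-- The Kummer setting for `Gal(Ω / l)`, `ξ ∈ l` a primitive `p`-th root of unity. -/
noncomputable def kumOf [IsAlgClosed Ω] {p : ℕ} [hp : Fact p.Prime] (l : IntermediateField F Ω)
    {ξ : l} (hξ : IsPrimitiveRoot ξ p) : KumSet (lev l) Ω p :=
  kumSetOf hp.out.pos l.fixingSubgroup (ζ := (ξ : Ω))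
    (hξ.map_of_injective (algebraMap l Ω).injective)
    (fun _ hg => (IntermediateField.mem_fixingSubgroup_iff _ _).mp hg _ ξ.2)

@[simp] lemma coe_kumOf_ζ [IsAlgClosed Ω] {p : ℕ} [hp : Fact p.Prime] (l : IntermediateField F Ω)
    {ξ : l} (hξ : IsPrimitiveRoot ξ p) : (((kumOf l hξ).ζ : Ωˣ) : Ω) = (ξ : Ω) := rfl

end fixed

section loc

variable {q : ℕ} [hq : Fact q.Prime] {p : ℕ} [hp : Fact p.Prime]
  (l : IntermediateField ℚ_[q] (PadicAlgCl q))

lemma exists_unit_pow_iff {a : lˣ} : (∃ b : l, b ^ p = (a : l)) ↔ ∃ b : lˣ, b ^ p = a := by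
  constructor
  · rintro ⟨b, hb⟩
    have hb0 : b ≠ 0 := by
      rintro rfl
      rw [zero_pow hp.out.ne_zero] at hb
      exact a.ne_zero hb.symm
    exact ⟨Units.mk0 b hb0, Units.ext hb⟩
  · rintro ⟨b, rfl⟩
    exact ⟨b, (Units.val_pow_eq_pow_val _ _).symm⟩

variable [FiniteDimensional ℚ_[q] l]

/-- The Hilbert symbol `(a, x) ↦ inv (κ_a ∪ κ_x)` on `l`. -/
noncomputable def locSymOf (hp2 : p ≠ 2) {ξ : l} (hξ : IsPrimitiveRoot ξ p)
    (inv : H2 (lev l) (triv p l.fixingSubgroup) →+ ZMod p) (hinv : Function.Injective inv) :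
    LocSym p q l where
  sym := symF (kumOf l hξ) (isFixed_fixingSubgroup l) inv
  mem_pow_iff := fun a => (exists_unit_pow_iff l).trans
    (symF_nondeg _ _ inv hinv (fun _ ha => exists_not_isNormFrom (q := q) l hp.out hξ ha) a)
  skew := symF_skew _ _ inv
  norm_mem := fun _ _ h => symF_of_isNormFrom _ _ inv h
  unit_mem := by
    intro hqp a x ha hx
    by_cases hap : ∃ b : lˣ, b ^ p = a
    · obtain ⟨b, rfl⟩ := hap
      exact symF_pow_left _ _ inv b x
    · push Not at hap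
      obtain ⟨i, y, h⟩ := exists_eq_pow_mul_pow_of_unit l hp.out hqp hξ ha hx hap
      exact symF_eq_one_of_eq _ _ hp2 inv h

lemma locSymOf_sym (hp2 : p ≠ 2) {ξ : l} (hξ : IsPrimitiveRoot ξ p)
    (inv : H2 (lev l) (triv p l.fixingSubgroup) →+ ZMod p) (hinv : Function.Injective inv) :
    (locSymOf l hp2 hξ inv hinv).sym = symF (kumOf l hξ) (isFixed_fixingSubgroup l) inv := rfl

end loc

end Fermat.Agent.CFT.Bridge
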