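import Fermat.Agent.CFT.Bridge.Decomp

/-!
# Places of a number field `K` above `q` versus embeddings `K → PadicAlgCl q`

* `placeOf τ : HeightOneSpectrum (𝓞 K)` : the place attached to an embedding `τ`.
* `valuation_le_one_iff`, `valuation_lt_one_iff` : comparison of the norms.
* `exists_placeOf_eq` : each place above `q` comes from an embedding.
* `placeOf_eq_iff` : two embeddings give the same place iff they are conjugate under
  `Gal(PadicAlgCl q / ℚ_[q])`.
-/

set_option autoImplicit false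

open scoped NNReal Pointwise TensorProduct
open IsDedekindDomain NumberField

namespace Fermat.Agent.CFT.Bridge

variable {q : ℕ} [hq : Fact q.Prime]

lemma norm_le_one_of_isIntegral {y : PadicAlgCl q} (hy : IsIntegral ℤ y) : ‖y‖ ≤ 1 := by
  have h2 : IsIntegral (padicIntegers q) y := hy.tower_top
  obtain ⟨z, hz⟩ := IsIntegrallyClosed.algebraMap_eq_of_integral h2
  have h3 : y ∈ padicIntegers q := by
    rw [← hz]
    exact z.2
  have h4 := (mem_padicIntegers_iff q).mp h3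
  rw [← NNReal.coe_le_coe, coe_nnnorm, NNReal.coe_one] at h4
  exact h4

section place

variable {K : Type*} [Field K] [NumberField K]

lemma norm_le_one_ringOfIntegers (τ : K →ₐ[ℚ] PadicAlgCl q) (x : 𝓞 K) : ‖τ x‖ ≤ 1 :=
  norm_le_one_of_isIntegral (x.2.map τ.toIntAlgHom)

/-- The prime ideal attached to an embedding into `PadicAlgCl q`. -/
noncomputable def placeIdeal (τ : K →ₐ[ℚ] PadicAlgCl q) : Ideal (𝓞 K) where
  carrier := {x | ‖τ x‖ < 1}
  add_mem' := by
    intro a b ha hb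
    change ‖τ ((a : K) + (b : K))‖ < 1
    rw [map_add]
    exact lt_of_le_of_lt (PadicAlgCl.isNonarchimedean q _ _) (max_lt ha hb)
  zero_mem' := by simp
  smul_mem' := by
    intro c x hx
    change ‖τ ((c : K) * (x : K))‖ < 1
    rw [map_mul, norm_mul]
    exact lt_of_le_of_lt (mul_le_of_le_one_left (norm_nonneg _) (norm_le_one_ringOfIntegers τ c)) hx

@[simp] lemma mem_placeIdeal (τ : K →ₐ[ℚ] PadicAlgCl q) (x : 𝓞 K) :
    x ∈ placeIdeal τ ↔ ‖τ x‖ < 1 := Iff.rfl

lemma q_mem_placeIdeal (τ : K →ₐ[ℚ] PadicAlgCl q) : (q : 𝓞 K) ∈ placeIdeal τ := by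
  have h : τ ((q : 𝓞 K) : K) = (q : PadicAlgCl q) := by
    have : ((q : 𝓞 K) : K) = (q : K) := map_natCast (algebraMap (𝓞 K) K) q
    rw [this, map_natCast]
  rw [mem_placeIdeal, h, norm_natCast_q]
  exact inv_lt_one_of_one_lt₀ (one_lt_q q)

/-- The place attached to an embedding into `PadicAlgCl q`. -/
noncomputable def placeOf (τ : K →ₐ[ℚ] PadicAlgCl q) : HeightOneSpectrum (𝓞 K) where
  asIdeal := placeIdeal τ
  isPrime := by
    constructor
    · rw [Ideal.ne_top_iff_one, mem_placeIdeal]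
      simp
    · intro x y hxy
      have hxy' : ‖τ ((x : K) * (y : K))‖ < 1 := hxy
      rw [map_mul, norm_mul] at hxy' 
      by_contra! h
      rw [mem_placeIdeal, mem_placeIdeal, not_lt, not_lt] at h
      have := one_le_mul_of_one_le_of_one_le h.1 h.2
      linarith
  ne_bot := by
    intro h
    have := q_mem_placeIdeal τ
    rw [h, Ideal.mem_bot] at this
    exact hq.out.ne_zero (by exact_mod_cast this)

@[simp] lemma placeOf_asIdeal (τ : K →ₐ[ℚ] PadicAlgCl q) : (placeOf τ).asIdeal = placeIdeal τ := rfl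

lemma norm_eq_one_of_notMem (τ : K →ₐ[ℚ] PadicAlgCl q) {x : 𝓞 K} (hx : x ∉ placeIdeal τ) :
    ‖τ x‖ = 1 := by
  rw [mem_placeIdeal, not_lt] at hx
  exact le_antisymm (norm_le_one_ringOfIntegers τ x) hx

lemma valuation_le_one_imp (τ : K →ₐ[ℚ] PadicAlgCl q) {x : K}
    (hx : (placeOf τ).valuation K x ≤ 1) : ‖τ x‖ ≤ 1 ∧
      ((placeOf τ).valuation K x < 1 → ‖τ x‖ < 1) := by
  obtain ⟨n, d, hnd⟩ := (placeOf τ).exists_primeCompl_mul_eq_of_integer x hx
  have hd : ‖τ ((d : 𝓞 K) : K)‖ = 1 := norm_eq_one_of_notMem τ d.2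
  have h1 : ‖τ x‖ = ‖τ (n : K)‖ := by
    have h2 : x * ((d : 𝓞 K) : K) = (n : K) := hnd
    rw [← h2, map_mul, norm_mul, hd, mul_one]
  refine ⟨h1 ▸ norm_le_one_ringOfIntegers τ n, fun h => ?_⟩
  rw [h1]
  have h3 : (placeOf τ).valuation K (algebraMap (𝓞 K) K n) < 1 := by
    rw [← hnd, map_mul, HeightOneSpectrum.valuation_of_algebraMap,
      (HeightOneSpectrum.intValuation_eq_one_iff_mem_primeCompl _ _).mpr d.2, mul_one]
    exact h
  rwa [HeightOneSpectrum.valuation_lt_one_iff_mem] at h3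

theorem norm_le_one_iff (τ : K →ₐ[ℚ] PadicAlgCl q) (x : K) :
    ‖τ x‖ ≤ 1 ↔ (placeOf τ).valuation K x ≤ 1 := by
  constructor
  · intro h
    by_contra! h1
    have hx : x ≠ 0 := by
      rintro rfl
      simp at h1
    have h2 : (placeOf τ).valuation K x⁻¹ < 1 := by
      rw [map_inv₀]
      exact inv_lt_one_of_one_lt₀ h1
    have h3 := (valuation_le_one_imp τ h2.le).2 h2
    rw [map_inv₀, norm_inv] at h3
    have h4 : 0 < ‖τ x‖ := norm_pos_iff.mpr ((map_ne_zero _).mpr hx)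
    rw [inv_lt_one₀ h4] at h3
    linarith
  · exact fun h => (valuation_le_one_imp τ h).1

theorem norm_lt_one_iff (τ : K →ₐ[ℚ] PadicAlgCl q) (x : K) :
    ‖τ x‖ < 1 ↔ (placeOf τ).valuation K x < 1 := by
  rcases eq_or_ne x 0 with rfl | hx
  · simp
  have h4 : 0 < ‖τ x‖ := norm_pos_iff.mpr ((map_ne_zero _).mpr hx)
  have h5 : 0 < (placeOf τ).valuation K x := zero_lt_iff.mpr ((map_ne_zero _).mpr hx)
  have := norm_le_one_iff τ x⁻¹
  rw [map_inv₀, map_inv₀, norm_inv, inv_le_one₀ h4, inv_le_one₀ h5] at this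
  rw [← not_le, ← not_le, this]

/-- The norm of the image under `τ` is determined by the valuation. -/
theorem norm_eq_zpow (τ : K →ₐ[ℚ] PadicAlgCl q) {π : K}
    (hπ : (placeOf τ).valuation K π = WithZero.exp (-1 : ℤ)) {x : K} {n : ℤ}
    (hx : (placeOf τ).valuation K x = WithZero.exp n) : ‖τ x‖ = ‖τ π‖ ^ (-n) := by
  have hπ0 : π ≠ 0 := by
    rintro rfl
    rw [map_zero] at hπ
    exact WithZero.exp_ne_zero hπ.symm
  have h4 : 0 < ‖τ π‖ := norm_pos_iff.mpr ((map_ne_zero _).mpr hπ0)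
  have h1 : (placeOf τ).valuation K (x * π ^ n) = 1 := by
    rw [map_mul, map_zpow₀, hπ, hx, ← WithZero.exp_zsmul, ← WithZero.exp_add]
    simp
  have h2 : ‖τ (x * π ^ n)‖ = 1 :=
    le_antisymm ((norm_le_one_iff τ _).mpr h1.le) (not_lt.mp fun h => by
      rw [norm_lt_one_iff, h1] at h
      exact lt_irrefl _ h)
  rw [map_mul, map_zpow₀, norm_mul, norm_zpow] at h2
  rw [zpow_neg]
  exact eq_inv_of_mul_eq_one_left h2

theorem placeOf_eq_iff (τ τ' : K →ₐ[ℚ] PadicAlgCl q) :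
    placeOf τ = placeOf τ' ↔ ∃ σ : PadicAlgCl q ≃ₐ[ℚ_[q]] PadicAlgCl q, ∀ x, σ (τ x) = τ' x := by
  constructor
  · intro h
    apply exists_algEquiv_of_norm_eq
    refine norm_eq_of_le_one_iff τ.toRingHom τ'.toRingHom fun x => ?_
    change ‖τ x‖ ≤ 1 ↔ ‖τ' x‖ ≤ 1
    rw [norm_le_one_iff, norm_le_one_iff, h]
  · rintro ⟨σ, hσ⟩
    ext x
    change ‖τ x‖ < 1 ↔ ‖τ' x‖ < 1
    rw [← hσ]
    have := congrArg NNReal.toReal (nnnorm_padicAlgCl_algEquiv q σ (τ x))
    rw [coe_nnnorm, coe_nnnorm] at this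
    rw [this]

/-- Each place above `q` comes from an embedding. -/
theorem exists_placeOf_eq (v : HeightOneSpectrum (𝓞 K)) (hv : (q : 𝓞 K) ∈ v.asIdeal) :
    ∃ τ : K →ₐ[ℚ] PadicAlgCl q, placeOf τ = v := by
  let j : K →ₐ[ℚ] AlgebraicClosure ℚ := IsAlgClosed.lift
  have hj : Function.Injective j := j.toRingHom.injective
  let f : 𝓞 K →+* AlgebraicClosure ℚ := j.toRingHom.comp (algebraMap (𝓞 K) K)
  have hf : Function.Injective f := hj.comp (FaithfulSMul.algebraMap_injective (𝓞 K) K)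
  let e : 𝓞 K ≃+* f.range := RingEquiv.ofBijective f.rangeRestrict
    ⟨fun a b h => hf (congrArg Subtype.val h), f.rangeRestrict_surjective⟩
  obtain ⟨B, hB, hB2⟩ := Ideal.image_subset_nonunits_valuationSubring
    (A := f.range) (v.asIdeal.map (e : 𝓞 K →+* f.range)) (by
      intro h
      have h2 := congrArg (Ideal.comap (e : 𝓞 K →+* f.range)) h
      rw [Ideal.comap_map_of_bijective (e : 𝓞 K →+* f.range) e.bijective, Ideal.comap_top] at h2
      exact v.isPrime.ne_top h2)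
  have hvB : ∀ x ∈ v.asIdeal, j (x : K) ∈ B.nonunits := by
    intro x hx
    exact hB2 ⟨e x, Ideal.mem_map_of_mem (e : 𝓞 K →+* f.range) hx, rfl⟩
  have hBq : B.LiesOverPrime q := by
    have := hvB _ hv
    rw [ValuationSubring.LiesOverPrime]
    simpa using this
  obtain ⟨g, hg⟩ := exists_smul_padicPlace q hBq
  let τ : K →ₐ[ℚ] PadicAlgCl q := (padicEmbedding q).comp
    (((g⁻¹ : AlgebraicClosure ℚ ≃ₐ[ℚ] AlgebraicClosure ℚ) :
      AlgebraicClosure ℚ →ₐ[ℚ] AlgebraicClosure ℚ).comp j)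
  refine ⟨τ, ?_⟩
  have hle : v.asIdeal ≤ placeIdeal τ := by
    intro x hx
    have h1 := hvB x hx
    rw [mem_placeIdeal]
    change ‖padicEmbedding q (g⁻¹ (j (x : K)))‖ < 1
    rw [← mem_nonunits_padicPlace_iff_norm]
    rw [← hg] at h1
    rw [ValuationSubring.mem_nonunits_iff_exists_mem_maximalIdeal] at h1
    obtain ⟨h2, h3⟩ := h1
    rw [ValuationSubring.mem_pointwise_smul_iff_inv_smul_mem] at h2
    rw [ValuationSubring.mem_nonunits_iff_exists_mem_maximalIdeal]
    refine ⟨h2, ?_⟩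
    rw [IsLocalRing.mem_maximalIdeal, mem_nonunits_iff] at h3 ⊢
    intro hu
    apply h3
    obtain ⟨y, hy⟩ := hu.exists_right_inv
    refine IsUnit.of_mul_eq_one ⟨g • (y : AlgebraicClosure ℚ), ?_⟩ ?_
    · exact (ValuationSubring.smul_mem_pointwise_smul_iff (g := g)).mpr y.2
    · apply Subtype.ext
      have h5 : g⁻¹ (j (x : K)) * (y : AlgebraicClosure ℚ) = 1 :=
        congrArg (fun z : padicPlace q => (z : AlgebraicClosure ℚ)) hy
      have h6 := congrArg g h5
      rw [map_mul, map_one] at h6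
      have h7 : g (g⁻¹ (j (x : K))) = j (x : K) := g.apply_symm_apply _
      rw [h7] at h6
      exact h6
  apply HeightOneSpectrum.ext
  exact (v.isMaximal.eq_of_le (placeOf τ).isPrime.ne_top hle).symm

lemma q_mem_placeOf (τ : K →ₐ[ℚ] PadicAlgCl q) : (q : 𝓞 K) ∈ (placeOf τ).asIdeal :=
  q_mem_placeIdeal τ

end place

end Fermat.Agent.CFT.Bridge
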