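import Fermat.Agent.CFT.Bridge.LocField
import Fermat.Agent.CFT.Bridge.Places
import Fermat.Agent.CFT.Global.Defs
import Mathlib.Analysis.Calculus.InverseFunctionTheorem.FDeriv
import Mathlib.Analysis.Calculus.FDeriv.Pow

/-!
# `p`-th powers in the completion, via `locField`

* `exists_pow_eq_of_near` : elements near `1` are `p`-th powers in a finite extension of `ℚ_[q]`;
* `mem_locPow_placeOf_iff` : `locPow p (placeOf τ) = Kˣ ∩ (locField τ)^{*p}`;
* `exists_eq_toLoc_mul_pow` : `Kˣ → (locField τ)ˣ / p` is onto.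
-/

set_option autoImplicit false

open IsDedekindDomain NumberField WithZero Filter Topology

namespace Fermat.Agent.CFT.Bridge

variable {q : ℕ} [hq : Fact q.Prime]

theorem exists_pow_eq_of_near (l : IntermediateField ℚ_[q] (PadicAlgCl q))
    [FiniteDimensional ℚ_[q] l] {p : ℕ} (hp : p ≠ 0) :
    ∃ ε : ℝ, 0 < ε ∧ ∀ z : l, ‖z - 1‖ < ε → ∃ b : l, b ^ p = z := by
  have : CompleteSpace l := FiniteDimensional.complete ℚ_[q] l
  have h1 : HasStrictFDerivAt (𝕜 := ℚ_[q]) (fun x : l => x ^ p)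
      ((p • (1 : l) ^ (p - 1)) • ContinuousLinearMap.id ℚ_[q] l) 1 :=
    (hasStrictFDerivAt_id (𝕜 := ℚ_[q]) (1 : l)).pow p
  have h2 : ((p • (1 : l) ^ (p - 1)) • ContinuousLinearMap.id ℚ_[q] l).range = ⊤ := by
    rw [eq_top_iff]
    rintro y -
    have hp' : (p : l) ≠ 0 := Nat.cast_ne_zero.mpr hp
    refine ⟨y / p, ?_⟩
    change (p • (1 : l) ^ (p - 1)) • (y / p) = y
    rw [one_pow, nsmul_eq_mul, mul_one, smul_eq_mul, mul_div_cancel₀ _ hp']
  have h3 := h1.map_nhds_eq_of_surj h2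
  have h4 : {z : l | ∃ b : l, b ^ p = z} ∈ 𝓝 ((fun x : l => x ^ p) 1) := by
    rw [← h3, Filter.mem_map]
    exact Filter.Eventually.of_forall fun b => ⟨b, rfl⟩
  simp only [one_pow] at h4
  obtain ⟨ε, hε, h5⟩ := Metric.mem_nhds_iff.mp h4
  exact ⟨ε, hε, fun z hz => h5 (by rwa [Metric.mem_ball, dist_eq_norm])⟩

section

variable {K : Type*} [Field K] [NumberField K]

theorem valuation_le_exp_iff (τ : K →ₐ[ℚ] PadicAlgCl q) {π : K}
    (hπ : (placeOf τ).valuation K π = exp (-1 : ℤ)) (x : K) (n : ℕ) :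
    (placeOf τ).valuation K x ≤ exp (-(n : ℤ)) ↔ ‖τ x‖ ≤ ‖τ π‖ ^ n := by
  have hπ0 : π ≠ 0 := by
    rintro rfl
    rw [map_zero] at hπ
    exact exp_ne_zero hπ.symm
  have h0 : (placeOf τ).valuation K (π ^ n) = exp (-(n : ℤ)) := by
    rw [map_pow, hπ, ← exp_nsmul]
    congr 1
    simp
  have h1 : ‖τ (x / π ^ n)‖ ≤ 1 ↔ ‖τ x‖ ≤ ‖τ π‖ ^ n := by
    rw [map_div₀, map_pow, norm_div, norm_pow, div_le_one]
    have : 0 < ‖τ π‖ := norm_pos_iff.mpr ((map_ne_zero _).mpr hπ0)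
    positivity
  rw [← h1, norm_le_one_iff, map_div₀, h0, div_le_iff₀ (by simp [zero_lt_iff]), one_mul]

lemma norm_uniformizer_lt_one (τ : K →ₐ[ℚ] PadicAlgCl q) {π : K}
    (hπ : (placeOf τ).valuation K π = exp (-1 : ℤ)) : ‖τ π‖ < 1 := by
  rw [norm_lt_one_iff, hπ, ← exp_zero, exp_lt_exp]
  omega

theorem mem_locPow_placeOf_iff {p : ℕ} (hp : p ≠ 0) (τ : K →ₐ[ℚ] PadicAlgCl q) (a : Kˣ) :
    a ∈ Global.locPow p (placeOf τ) ↔ ∃ b : locField τ, b ^ p = toLoc τ a := by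
  obtain ⟨π, hπ⟩ := (placeOf τ).valuation_exists_uniformizer K
  have hπ0 : π ≠ 0 := by
    rintro rfl
    rw [map_zero] at hπ
    exact exp_ne_zero hπ.symm
  have hπ1 := norm_uniformizer_lt_one τ hπ
  have hπp : 0 < ‖τ π‖ := norm_pos_iff.mpr ((map_ne_zero _).mpr hπ0)
  have key : ∀ (z : K) (n : ℕ), (placeOf τ).valuation K z ≤ exp (-((n : ℤ) + 1)) ↔
      ‖τ z‖ ≤ ‖τ π‖ ^ (n + 1) := by
    intro z n
    rw [← valuation_le_exp_iff τ hπ z (n + 1)]
    push_cast
    rfl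
  rw [Global.mem_locPow]
  constructor
  · intro h
    obtain ⟨ε, hε, hnear⟩ := exists_pow_eq_of_near (locField τ) hp
    obtain ⟨n, hn⟩ := exists_pow_lt_of_lt_one hε hπ1
    obtain ⟨y, hy⟩ := h n
    rw [key] at hy
    have h1 : ‖toLoc τ ((a / y ^ p : Kˣ) : K) - 1‖ < ε := by
      refine lt_of_le_of_lt ?_ hn
      have e : ‖toLoc τ ((a / y ^ p : Kˣ) : K) - 1‖ = ‖τ (((a / y ^ p : Kˣ) : K) - 1)‖ := by
        rw [map_sub, map_one]
        rfl
      rw [e]
      refine hy.trans ?_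
      exact pow_le_pow_of_le_one hπp.le hπ1.le (Nat.le_succ n)
    obtain ⟨b, hb⟩ := hnear _ h1
    refine ⟨b * toLoc τ y, ?_⟩
    rw [mul_pow, hb, ← map_pow, ← map_mul]
    congr 1
    rw [Units.val_div_eq_div_val, Units.val_pow_eq_pow_val]
    field_simp
  · rintro ⟨b, hb⟩ n
    have hb0 : b ≠ 0 := by
      rintro rfl
      rw [zero_pow hp] at hb
      exact (map_ne_zero (toLoc τ)).mpr a.ne_zero hb.symm
    -- the function `y ↦ b ^ p / y ^ p - 1` is continuous at `b`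
    have hc : ContinuousAt (fun y : PadicAlgCl q => (b : PadicAlgCl q) ^ p / y ^ p - 1)
        (b : PadicAlgCl q) := by
      refine ContinuousAt.sub (ContinuousAt.div continuousAt_const
        ((continuous_pow p).continuousAt) ?_) continuousAt_const
      exact pow_ne_zero _ (by simpa using hb0)
    have hb0' : (b : PadicAlgCl q) ≠ 0 := by simpa using hb0
    have hc0 : (b : PadicAlgCl q) ^ p / (b : PadicAlgCl q) ^ p - 1 = 0 := by
      rw [div_self (pow_ne_zero _ hb0'), sub_self]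
    have hev : ∀ᶠ y in 𝓝 (b : PadicAlgCl q),
        ‖(b : PadicAlgCl q) ^ p / y ^ p - 1‖ < ‖τ π‖ ^ (n + 1) ∧ y ≠ 0 := by
      refine Filter.Eventually.and ?_ (isOpen_ne.mem_nhds hb0')
      have := hc.norm
      rw [ContinuousAt, hc0, norm_zero] at this
      exact this.eventually (gt_mem_nhds (pow_pos hπp _))
    obtain ⟨δ, hδ, hball⟩ := Metric.eventually_nhds_iff.mp hev
    obtain ⟨y, hy⟩ := exists_norm_sub_lt τ b.2 hδ
    have hy' := hball (y := τ y) (by rwa [dist_eq_norm])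
    have hy0 : y ≠ 0 := by
      rintro rfl
      exact hy'.2 (map_zero τ)
    refine ⟨Units.mk0 y hy0, ?_⟩
    rw [key]
    refine le_of_lt ?_
    have e : τ (((a / (Units.mk0 y hy0) ^ p : Kˣ) : K) - 1) =
        (b : PadicAlgCl q) ^ p / (τ y) ^ p - 1 := by
      have hb' : (b : PadicAlgCl q) ^ p = τ a := by
        have := congrArg (Subtype.val) hb
        simpa using this
      rw [map_sub, map_one, Units.val_div_eq_div_val, Units.val_pow_eq_pow_val, Units.val_mk0,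
        map_div₀, map_pow, hb']
    rw [e]
    exact hy'.1

/-- `Kˣ → (locField τ)ˣ / p` is onto. -/
theorem exists_eq_toLoc_mul_pow {p : ℕ} (hp : p ≠ 0) (τ : K →ₐ[ℚ] PadicAlgCl q)
    (x : (locField τ)ˣ) :
    ∃ (y : Kˣ) (b : (locField τ)ˣ), x = Units.map (toLoc τ).toRingHom.toMonoidHom y * b ^ p := by
  obtain ⟨ε, hε, hnear⟩ := exists_pow_eq_of_near (locField τ) hp
  have hx0 : (x : locField τ) ≠ 0 := x.ne_zero
  have hx0' : ((x : locField τ) : PadicAlgCl q) ≠ 0 := by simp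
  have hc : ContinuousAt (fun y : PadicAlgCl q => ((x : locField τ) : PadicAlgCl q) / y - 1)
      ((x : locField τ) : PadicAlgCl q) :=
    ContinuousAt.sub (ContinuousAt.div continuousAt_const continuousAt_id hx0') continuousAt_const
  have hc0 : ((x : locField τ) : PadicAlgCl q) / ((x : locField τ) : PadicAlgCl q) - 1 = 0 := by
    rw [div_self hx0', sub_self]
  have hev : ∀ᶠ y in 𝓝 ((x : locField τ) : PadicAlgCl q),
      ‖((x : locField τ) : PadicAlgCl q) / y - 1‖ < ε ∧ y ≠ 0 := by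
    refine Filter.Eventually.and ?_ (isOpen_ne.mem_nhds hx0')
    have := hc.norm
    rw [ContinuousAt, hc0, norm_zero] at this
    exact this.eventually (gt_mem_nhds hε)
  obtain ⟨δ, hδ, hball⟩ := Metric.eventually_nhds_iff.mp hev
  obtain ⟨y, hy⟩ := exists_norm_sub_lt τ (x : locField τ).2 hδ
  have hy' := hball (y := τ y) (by rwa [dist_eq_norm])
  have hy0 : y ≠ 0 := by
    rintro rfl
    exact hy'.2 (map_zero τ)
  have hty : toLoc τ y ≠ 0 := (map_ne_zero _).mpr hy0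
  obtain ⟨b, hb⟩ := hnear ((x : locField τ) / toLoc τ y) (by
    have e : ‖(x : locField τ) / toLoc τ y - 1‖ = ‖((x : locField τ) : PadicAlgCl q) / τ y - 1‖ := by
      rfl
    rw [e]
    exact hy'.1)
  have hb0 : b ≠ 0 := by
    rintro rfl
    rw [zero_pow hp] at hb
    exact (div_ne_zero hx0 hty) hb.symm
  refine ⟨Units.mk0 y hy0, Units.mk0 b hb0, ?_⟩
  ext1
  rw [Units.val_mul, Units.val_pow_eq_pow_val, Units.val_mk0, hb]
  change (x : locField τ) = toLoc τ y * ((x : locField τ) / toLoc τ y)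
  rw [mul_div_cancel₀ _ hty]

end

end Fermat.Agent.CFT.Bridge
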