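import Fermat.Prelude.Def_GaloisRep_CompletionBridge

/-!
# Embeddings of algebraic extensions of `ℚ` into `PadicAlgCl q`

`Fermat.Agent.CFT.Bridge`: basic facts.

* `exists_norm_pow_eq` : values of the norm of `PadicAlgCl q` are rational powers of `q`.
* `norm_eq_of_le_one_iff` : an embedding `τ : K → PadicAlgCl q` of a field is determined up to norm by its
  valuation ring.
* `exists_algEquiv_of_norm_eq` : two embeddings with the same norm differ by an element of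
  `Gal(PadicAlgCl q / ℚ_[q])`.
-/

set_option autoImplicit false

open scoped NNReal Pointwise TensorProduct

namespace Fermat.Agent.CFT.Bridge

variable (q : ℕ) [hq : Fact q.Prime]

lemma one_lt_q : (1 : ℝ) < q := by exact_mod_cast hq.out.one_lt

lemma q_pos : (0 : ℝ) < q := by exact_mod_cast hq.out.pos

/-- every nonzero element of `PadicAlgCl q` has a power whose norm is a power of `q` -/
lemma exists_norm_pow_eq {y : PadicAlgCl q} (hy : y ≠ 0) :
    ∃ (n : ℕ) (m : ℤ), 0 < n ∧ ‖y‖ ^ n = (q : ℝ) ^ m := by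
  have halg : IsIntegral ℚ_[q] y := Algebra.IsIntegral.isIntegral y
  set n := (minpoly ℚ_[q] y).natDegree with hn
  have hn0 : 0 < n := minpoly.natDegree_pos halg
  have h1 : ‖y‖ = ‖(minpoly ℚ_[q] y).coeff 0‖ ^ (1 / n : ℝ) := by
    rw [← PadicAlgCl.spectralNorm_eq]
    exact spectralNorm.spectralNorm_eq_norm_coeff_zero_rpow _ _ y
  have hc0 : (minpoly ℚ_[q] y).coeff 0 ≠ 0 := minpoly.coeff_zero_ne_zero halg hy
  refine ⟨n, -((minpoly ℚ_[q] y).coeff 0).valuation, hn0, ?_⟩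
  rw [h1, ← Real.rpow_natCast, ← Real.rpow_mul (norm_nonneg _), one_div,
    inv_mul_cancel₀ (by exact_mod_cast hn0.ne'), Real.rpow_one,
    Padic.norm_eq_zpow_neg_valuation hc0]

lemma norm_natCast_q : ‖(q : PadicAlgCl q)‖ = (q : ℝ)⁻¹ := by
  have := PadicAlgCl.norm_extends q (q : ℚ_[q])
  rw [Padic.norm_p] at this
  rw [← this]
  simp

section embeddings

variable {q}
variable {K : Type*} [Field K]

/-- Two embeddings with the same valuation ring induce the same norm. -/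
lemma norm_eq_of_le_one_iff (τ τ' : K →+* PadicAlgCl q)
    (h : ∀ x, ‖τ x‖ ≤ 1 ↔ ‖τ' x‖ ≤ 1) (x : K) : ‖τ x‖ = ‖τ' x‖ := by
  -- units
  have hunit : ∀ y : K, ‖τ y‖ = 1 → ‖τ' y‖ = 1 := by
    intro y hy
    have hy0 : y ≠ 0 := by
      rintro rfl
      simp at hy
    have hty0 : τ' y ≠ 0 := (map_ne_zero τ').mpr hy0
    have h1 : ‖τ' y‖ ≤ 1 := (h y).mp hy.le
    have h2 : ‖τ' y⁻¹‖ ≤ 1 := (h y⁻¹).mp (by rw [map_inv₀, norm_inv, hy, inv_one])
    rw [map_inv₀, norm_inv] at h2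
    have h3 : 0 < ‖τ' y‖ := norm_pos_iff.mpr hty0
    refine le_antisymm h1 ?_
    rwa [inv_le_one₀ h3] at h2
  rcases eq_or_ne x 0 with rfl | hx
  · simp
  obtain ⟨n, m, hn, hnm⟩ := exists_norm_pow_eq q ((map_ne_zero τ).mpr hx)
  -- x^n * q^m is a unit
  have hK : (q : K) ≠ 0 := by
    intro h0
    have : τ (q : K) = 0 := by rw [h0, map_zero]
    rw [map_natCast] at this
    have h2 := norm_natCast_q q
    rw [this, norm_zero] at h2
    have := inv_pos.mpr (q_pos q)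
    linarith
  have hval : ∀ σ : K →+* PadicAlgCl q, ‖σ (x ^ n * (q : K) ^ m)‖ = ‖σ x‖ ^ n * (q : ℝ) ^ (-m) := by
    intro σ
    rw [map_mul, map_pow, map_zpow₀, norm_mul, norm_pow, norm_zpow, map_natCast, norm_natCast_q,
      inv_zpow', ]
  have h1 : ‖τ (x ^ n * (q : K) ^ m)‖ = 1 := by
    rw [hval, hnm, ← zpow_add₀ (q_pos q).ne', add_neg_cancel, zpow_zero]
  have h2 := hunit _ h1
  rw [hval] at h2
  have h3 : ‖τ' x‖ ^ n = ‖τ x‖ ^ n := by
    rw [hnm]
    have hqm : (q : ℝ) ^ m ≠ 0 := zpow_ne_zero _ (q_pos q).ne'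
    rw [zpow_neg, ← div_eq_mul_inv, div_eq_one_iff_eq hqm] at h2
    exact h2
  exact ((pow_left_inj₀ (norm_nonneg _) (norm_nonneg _) hn.ne').mp h3).symm

variable [CharZero K] [Algebra.IsAlgebraic ℚ K]

/-- the `ℚ_[q]`-algebra map `ℚ_[q] ⊗ K → PadicAlgCl q` induced by an embedding -/
noncomputable def tensorMap (τ : K →ₐ[ℚ] PadicAlgCl q) : ℚ_[q] ⊗[ℚ] K →ₐ[ℚ_[q]] PadicAlgCl q :=
  Algebra.TensorProduct.lift (Algebra.ofId _ _) τ (fun _ _ => Commute.all _ _)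

omit [Algebra.IsAlgebraic ℚ K] in
lemma tensorMap_tmul (τ : K →ₐ[ℚ] PadicAlgCl q) (a : ℚ_[q]) (x : K) :
    tensorMap τ (a ⊗ₜ x) = algebraMap _ _ a * τ x := by
  simp [tensorMap, Algebra.ofId_apply]

omit [Algebra.IsAlgebraic ℚ K] in
lemma norm_tensorMap_eq (τ τ' : K →ₐ[ℚ] PadicAlgCl q) (h : ∀ x, ‖τ x‖ = ‖τ' x‖)
    (z : ℚ_[q] ⊗[ℚ] K) : ‖tensorMap τ z‖ = ‖tensorMap τ' z‖ := by
  classical
  obtain ⟨S, rfl⟩ := TensorProduct.exists_finset z
  -- the function of the coefficients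
  let f : (K →ₐ[ℚ] PadicAlgCl q) → (S → ℚ_[q]) → PadicAlgCl q :=
    fun σ a => ∑ i : S, algebraMap ℚ_[q] (PadicAlgCl q) (a i) * σ (i.1.2)
  have hcont : ∀ σ, Continuous (f σ) := by
    intro σ
    refine continuous_finsetSum _ fun i _ => ?_
    exact ((continuous_algebraMap _ _).comp (continuous_apply i)).mul continuous_const
  have hclosed : IsClosed {a : S → ℚ_[q] | ‖f τ a‖ = ‖f τ' a‖} :=
    isClosed_eq (hcont τ).norm (hcont τ').norm
  have hdense : DenseRange (fun (r : S → ℚ) (i : S) => (r i : ℚ_[q])) :=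
    DenseRange.piMap (fun _ => Padic.denseRange_ratCast q)
  have hall : ∀ a : S → ℚ_[q], ‖f τ a‖ = ‖f τ' a‖ := by
    intro a
    refine hdense.induction_on (p := fun a => ‖f τ a‖ = ‖f τ' a‖) a hclosed ?_
    intro r
    have h1 : ∀ σ : K →ₐ[ℚ] PadicAlgCl q, f σ (fun i => (r i : ℚ_[q])) =
        σ (∑ i : S, algebraMap ℚ K (r i) * i.1.2) := by
      intro σ
      simp only [f, map_sum, map_mul, map_ratCast, eq_ratCast]
    rw [h1, h1, h]
  have h2 : ∀ σ : K →ₐ[ℚ] PadicAlgCl q, tensorMap σ (∑ i ∈ S, i.1 ⊗ₜ[ℚ] i.2) =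
      f σ (fun i => i.1.1) := by
    intro σ
    simp only [f, map_sum, tensorMap_tmul]
    rw [← Finset.sum_coe_sort S (fun i => algebraMap ℚ_[q] (PadicAlgCl q) i.1 * σ i.2)]
  rw [h2, h2, hall]

omit [Algebra.IsAlgebraic ℚ K] in
/-- Two embeddings inducing the same norm differ by an automorphism of `PadicAlgCl q`. -/
theorem exists_algEquiv_of_norm_eq (τ τ' : K →ₐ[ℚ] PadicAlgCl q) (h : ∀ x, ‖τ x‖ = ‖τ' x‖) :
    ∃ σ : PadicAlgCl q ≃ₐ[ℚ_[q]] PadicAlgCl q, ∀ x, σ (τ x) = τ' x := by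
  have hker : ∀ z, tensorMap τ z = 0 → tensorMap τ' z = 0 := by
    intro z hz
    rw [← norm_eq_zero, ← norm_tensorMap_eq τ τ' h, hz, norm_zero]
  -- the range is a field
  let F : IntermediateField ℚ_[q] (PadicAlgCl q) :=
    (tensorMap τ).range.toIntermediateField' (Subalgebra.isField_of_algebraic _)
  have hFS : F.toSubalgebra = (tensorMap τ).range := toSubalgebra_toIntermediateField' _ _
  let g : ℚ_[q] ⊗[ℚ] K →ₐ[ℚ_[q]] F := (tensorMap τ).codRestrict F.toSubalgebra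
    (fun z => by rw [hFS]; exact ⟨z, rfl⟩)
  have hg : Function.Surjective g := by
    rintro ⟨y, hy⟩
    have hy' : y ∈ F.toSubalgebra := hy
    rw [hFS] at hy'
    obtain ⟨z, hz⟩ := hy'
    exact ⟨z, Subtype.ext hz⟩
  let e := Ideal.quotientKerAlgEquivOfSurjective hg
  have hker2 : ∀ z, z ∈ RingHom.ker g → tensorMap τ' z = 0 := by
    intro z hz
    apply hker
    have : g z = 0 := (RingHom.mem_ker).mp hz
    exact congrArg Subtype.val this
  let φ₀ : (ℚ_[q] ⊗[ℚ] K ⧸ RingHom.ker g) →ₐ[ℚ_[q]] PadicAlgCl q :=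
    Ideal.Quotient.liftₐ (RingHom.ker g) (tensorMap τ') hker2
  let φ : F →ₐ[ℚ_[q]] PadicAlgCl q := φ₀.comp (e.symm : F →ₐ[ℚ_[q]] _)
  have hφ : ∀ z, φ (g z) = tensorMap τ' z := by
    intro z
    have h0 : e.symm (g z) = Ideal.Quotient.mk _ z := by
      rw [AlgEquiv.symm_apply_eq]
      rfl
    have h1 : φ (g z) = φ₀ (e.symm (g z)) := rfl
    rw [h1, h0]
    rfl
  obtain ⟨ψ, hψ⟩ := IntermediateField.exists_algHom_of_splits (F := ℚ_[q]) (E := PadicAlgCl q)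
    (K := PadicAlgCl q)
    (fun s => ⟨Algebra.IsIntegral.isIntegral s, IsAlgClosed.splits _⟩) φ
  refine ⟨AlgEquiv.ofBijective ψ (Algebra.IsAlgebraic.algHom_bijective ψ), fun x => ?_⟩
  have h1 : (g (1 ⊗ₜ x) : PadicAlgCl q) = τ x := by
    change tensorMap τ (1 ⊗ₜ x) = τ x
    rw [tensorMap_tmul, map_one, one_mul]
  have h2 := DFunLike.congr_fun hψ (g (1 ⊗ₜ x))
  rw [hφ, tensorMap_tmul, map_one, one_mul] at h2
  rw [← h2]
  change ψ (τ x) = ψ _
  rw [← h1]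
  rfl

end embeddings

end Fermat.Agent.CFT.Bridge
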