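import Fermat.Agent.CFT.Bridge.GlobPlace

/-!
# Independence of the representative of a place; places as orbits

* `resT_conj` : inner automorphisms act trivially on `H2 𝓛 (triv p G)`;
* `resW_eq_zero_iff` : vanishing of the restriction to a place does not depend on the
  representative;
* `orbitPlace` : the orbits of `G_q` on `Γ / G_K` are the places of `K` above `q`.
-/

set_option autoImplicit false

open Fermat.Agent.PT Fermat.Agent.CFT.Kum Fermat.Agent.CFT.Kum.KumSet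
open IsDedekindDomain NumberField

namespace Fermat.Agent.CFT.Bridge

section conj

variable {p : ℕ} [hp : Fact p.Prime] {G : Type*} [Group G] {𝓛 : LevelSys G}

lemma compat_conj (u : G) : 𝓛.Compat (MulAut.conj u).toMonoidHom 𝓛 := by
  intro W hW
  obtain ⟨V, hV, hVW, hn⟩ := LevelSys.exists_normal hW
  refine LevelSys.mono hV fun g hg => ?_
  rw [Subgroup.mem_comap]
  exact hVW (hn.conj_mem g hg u)

/-- Inner automorphisms act trivially on `H²` of the trivial module. -/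
theorem resT_conj (u : G) (x : H2 𝓛 (triv p G)) :
    resT (MulAut.conj u).toMonoidHom (compat_conj u) x = x := by
  obtain ⟨c, rfl⟩ := H2mk_surjective x
  rw [resT_mk, ← sub_eq_zero, ← map_sub, H2mk_triv_eq_zero_iff]
  have hc : ∀ x y z : G, c.1 (x * y, z) + c.1 (x, y) = c.1 (y, z) + c.1 (x, y * z) := by
    intro x y z
    have := c.2.2 x y z
    rwa [Representation.trivial_apply] at this
  obtain ⟨W, hW, hWn, hWc⟩ := c.2.1.exists_normal
  refine ⟨fun g => c.1 (u * g * u⁻¹, u) - c.1 (u, g), ⟨W, hW, fun g s hs => ?_⟩, fun g h => ?_⟩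
  · beta_reduce
    have e1 : u * (g * s) * u⁻¹ = (u * g * u⁻¹) * (u * s * u⁻¹) := by group
    have h1 := hWc (u * g * u⁻¹) u (u * s * u⁻¹) 1 (hWn.conj_mem s hs u) W.one_mem
    have h2 := hWc u g 1 s W.one_mem hs
    rw [mul_one] at h1 h2
    rw [e1, h1, h2]
  · change c.1 (u * g * u⁻¹, u * h * u⁻¹) - c.1 (g, h) =
      (c.1 (u * h * u⁻¹, u) - c.1 (u, h)) -
        (c.1 (u * (g * h) * u⁻¹, u) - c.1 (u, g * h)) + (c.1 (u * g * u⁻¹, u) - c.1 (u, g))
    have hA := hc u g h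
    have hB := hc (u * g * u⁻¹) (u * h * u⁻¹) u
    have hC := hc (u * g * u⁻¹) u h
    have e1 : u * g * u⁻¹ * u = u * g := by group
    have e2 : u * h * u⁻¹ * u = u * h := by group
    have e3 : u * g * u⁻¹ * (u * h * u⁻¹) = u * (g * h) * u⁻¹ := by group
    rw [e2, e3] at hB
    rw [e1] at hC
    linear_combination hA + hB - hC

lemma resT_resT {H H' : Type*} [Group H] [Group H'] {𝓛' : LevelSys H} {𝓛'' : LevelSys H'}
    (u : H →* G) (hu : 𝓛.Compat u 𝓛') (v : H' →* H) (hv : 𝓛'.Compat v 𝓛'')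
    (huv : 𝓛.Compat (u.comp v) 𝓛'') (x : H2 𝓛 (triv p G)) :
    resT v hv (resT u hu x) = resT (u.comp v) huv x := by
  obtain ⟨c, rfl⟩ := H2mk_surjective x
  rfl

lemma resT_congr {H : Type*} [Group H] {𝓛' : LevelSys H}
    {u v : H →* G} (hu : 𝓛.Compat u 𝓛') (huv : u = v) (x : H2 𝓛 (triv p G)) :
    resT u hu x = resT v (huv ▸ hu) x := by
  subst huv
  rfl

end conj

section places

variable (K : IntermediateField ℚ (AlgebraicClosure ℚ)) {q : ℕ} [hq : Fact q.Prime]

/-- Conjugation `σ⁻¹ · σ` between the local groups of `(q, r(σ) g u)` and `(q, g)`. -/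
noncomputable def conjW (g : AlgebraicClosure ℚ ≃ₐ[ℚ] AlgebraicClosure ℚ)
    (σ : PadicAlgCl q ≃ₐ[ℚ_[q]] PadicAlgCl q)
    (u : AlgebraicClosure ℚ ≃ₐ[ℚ] AlgebraicClosure ℚ) (hu : u ∈ K.fixingSubgroup) :
    (locField (emb K q (localGaloisToGlobal q σ * g * u))).fixingSubgroup →*
      (locField (emb K q g)).fixingSubgroup where
  toFun h := ⟨σ⁻¹ * h * σ, by
    have h1 := (mem_fixing_locField_emb_iff K q).mp h.2
    rw [mem_fixing_locField_emb_iff]
    have h2 := K.fixingSubgroup.mul_mem (K.fixingSubgroup.mul_mem hu h1)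
      (K.fixingSubgroup.inv_mem hu)
    convert h2 using 1
    rw [map_mul, map_mul, map_inv]
    group⟩
  map_one' := by
    apply Subtype.ext
    simp
  map_mul' a b := by
    apply Subtype.ext
    simp only [Subgroup.coe_mul]
    group

lemma compat_conjW (g : AlgebraicClosure ℚ ≃ₐ[ℚ] AlgebraicClosure ℚ)
    (σ : PadicAlgCl q ≃ₐ[ℚ_[q]] PadicAlgCl q)
    (u : AlgebraicClosure ℚ ≃ₐ[ℚ] AlgebraicClosure ℚ) (hu : u ∈ K.fixingSubgroup) :
    (lev (locField (emb K q g))).Compat (conjW K g σ u hu)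
      (lev (locField (emb K q (localGaloisToGlobal q σ * g * u)))) := by
  rintro W ⟨V, hV, hVW⟩
  obtain ⟨V', hV', hVV', hn⟩ := LevelSys.exists_normal hV
  refine ⟨V', hV', fun h hh => ?_⟩
  rw [Subgroup.mem_comap] at hh ⊢
  apply hVW
  rw [Subgroup.mem_comap]
  apply hVV'
  have := hn.conj_mem _ hh σ⁻¹
  rwa [inv_inv] at this

lemma jw_comp_conjW (g : AlgebraicClosure ℚ ≃ₐ[ℚ] AlgebraicClosure ℚ)
    (σ : PadicAlgCl q ≃ₐ[ℚ_[q]] PadicAlgCl q)
    (u : AlgebraicClosure ℚ ≃ₐ[ℚ] AlgebraicClosure ℚ) (hu : u ∈ K.fixingSubgroup) :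
    (jw K q g).comp (conjW K g σ u hu) =
      (MulAut.conj (⟨u, hu⟩ : K.fixingSubgroup)).toMonoidHom.comp
        (jw K q (localGaloisToGlobal q σ * g * u)) := by
  ext1 h
  apply Subtype.ext
  change g⁻¹ * localGaloisToGlobal q (σ⁻¹ * h * σ) * g =
    u * ((localGaloisToGlobal q σ * g * u)⁻¹ * localGaloisToGlobal q h *
      (localGaloisToGlobal q σ * g * u)) * u⁻¹
  rw [map_mul, map_mul, map_inv]
  group

variable {p : ℕ} [hp : Fact p.Prime]

/-- The restrictions to two representatives of a place differ by a conjugation. -/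
theorem resW_mul (g : AlgebraicClosure ℚ ≃ₐ[ℚ] AlgebraicClosure ℚ)
    (σ : PadicAlgCl q ≃ₐ[ℚ_[q]] PadicAlgCl q)
    (u : AlgebraicClosure ℚ ≃ₐ[ℚ] AlgebraicClosure ℚ) (hu : u ∈ K.fixingSubgroup)
    (x : H2 (lev K) (triv p K.fixingSubgroup)) :
    resT (conjW K g σ u hu) (compat_conjW K g σ u hu) (resW K q g x) =
      resW K q (localGaloisToGlobal q σ * g * u) x := by
  have h1 : (lev K).Compat ((jw K q g).comp (conjW K g σ u hu))
      (lev (locField (emb K q (localGaloisToGlobal q σ * g * u)))) := by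
    intro W hW
    exact compat_conjW K g σ u hu _ (compat_jw K q g W hW)
  rw [resW, resT_resT _ _ _ _ h1, resT_congr h1 (jw_comp_conjW K g σ u hu),
    ← resT_resT _ (compat_conj _) _ (compat_jw K q (localGaloisToGlobal q σ * g * u)), resT_conj]
  rfl

lemma resW_eq_zero_of_mul (g : AlgebraicClosure ℚ ≃ₐ[ℚ] AlgebraicClosure ℚ)
    (σ : PadicAlgCl q ≃ₐ[ℚ_[q]] PadicAlgCl q)
    (u : AlgebraicClosure ℚ ≃ₐ[ℚ] AlgebraicClosure ℚ) (hu : u ∈ K.fixingSubgroup)
    {x : H2 (lev K) (triv p K.fixingSubgroup)} (h : resW K q g x = 0) :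
    resW K q (localGaloisToGlobal q σ * g * u) x = 0 := by
  rw [← resW_mul K g σ u hu, h, map_zero]

/-- Vanishing of the restriction only depends on the place. -/
theorem resW_eq_zero_iff [FiniteDimensional ℚ K]
    {g g' : AlgebraicClosure ℚ ≃ₐ[ℚ] AlgebraicClosure ℚ}
    (hgg : placeOf (emb K q g) = placeOf (emb K q g'))
    (x : H2 (lev K) (triv p K.fixingSubgroup)) :
    resW K q g x = 0 ↔ resW K q g' x = 0 := by
  constructor
  · intro h
    obtain ⟨σ, u, hu, rfl⟩ := (placeOf_emb_eq_iff K g g').mp hgg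
    exact resW_eq_zero_of_mul K g σ u hu h
  · intro h
    obtain ⟨σ, u, hu, rfl⟩ := (placeOf_emb_eq_iff K g' g).mp hgg.symm
    exact resW_eq_zero_of_mul K g' σ u hu h

end places

section orbits

variable (K : IntermediateField ℚ (AlgebraicClosure ℚ)) [FiniteDimensional ℚ K]
  (q : ℕ) [hq : Fact q.Prime]

/-- The place of `K` attached to a coset `g G_K`. -/
noncomputable def cosetPlace (c : (AlgebraicClosure ℚ ≃ₐ[ℚ] AlgebraicClosure ℚ) ⧸ K.fixingSubgroup) :
    HeightOneSpectrum (𝓞 K) :=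
  Quotient.liftOn' c (fun g => placeOf (emb K q g)) (by
    intro g g' h
    rw [QuotientGroup.leftRel_apply] at h
    rw [placeOf_emb_eq_iff]
    exact ⟨1, g⁻¹ * g', h, by rw [map_one]; group⟩)

@[simp] lemma cosetPlace_mk (g : AlgebraicClosure ℚ ≃ₐ[ℚ] AlgebraicClosure ℚ) :
    cosetPlace K q (g : (AlgebraicClosure ℚ ≃ₐ[ℚ] AlgebraicClosure ℚ) ⧸ K.fixingSubgroup) =
      placeOf (emb K q g) := rfl

lemma q_mem_cosetPlace (c : (AlgebraicClosure ℚ ≃ₐ[ℚ] AlgebraicClosure ℚ) ⧸ K.fixingSubgroup) :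
    (q : 𝓞 K) ∈ (cosetPlace K q c).asIdeal := by
  induction c using QuotientGroup.induction_on with
  | H g => exact q_mem_placeOf _

/-- Two cosets give the same place iff they are in the same orbit of the local Galois group. -/
lemma cosetPlace_eq_iff (c c' : (AlgebraicClosure ℚ ≃ₐ[ℚ] AlgebraicClosure ℚ) ⧸ K.fixingSubgroup) :
    cosetPlace K q c = cosetPlace K q c' ↔
      ∃ σ : PadicAlgCl q ≃ₐ[ℚ_[q]] PadicAlgCl q, c' = localGaloisToGlobal q σ • c := by
  induction c using QuotientGroup.induction_on with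
  | H g =>
  induction c' using QuotientGroup.induction_on with
  | H g' =>
  rw [cosetPlace_mk, cosetPlace_mk, placeOf_emb_eq_iff]
  constructor
  · rintro ⟨σ, u, hu, rfl⟩
    refine ⟨σ, ?_⟩
    change _ = ((localGaloisToGlobal q σ * g :
      (AlgebraicClosure ℚ ≃ₐ[ℚ] AlgebraicClosure ℚ)) : _ ⧸ K.fixingSubgroup)
    rw [QuotientGroup.eq]
    have : (localGaloisToGlobal q σ * g * u)⁻¹ * (localGaloisToGlobal q σ * g) = u⁻¹ := by group
    rw [this]
    exact K.fixingSubgroup.inv_mem hu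
  · rintro ⟨σ, h⟩
    have h' : ((g' : (AlgebraicClosure ℚ ≃ₐ[ℚ] AlgebraicClosure ℚ)) : _ ⧸ K.fixingSubgroup) =
      ((localGaloisToGlobal q σ * g : (AlgebraicClosure ℚ ≃ₐ[ℚ] AlgebraicClosure ℚ)) : _ ⧸ _) := h
    rw [QuotientGroup.eq] at h'
    refine ⟨σ, (g'⁻¹ * (localGaloisToGlobal q σ * g))⁻¹, K.fixingSubgroup.inv_mem h', by group⟩

lemma exists_cosetPlace (v : HeightOneSpectrum (𝓞 K)) (hv : (q : 𝓞 K) ∈ v.asIdeal) :
    ∃ c, cosetPlace K q c = v := by
  obtain ⟨g, hg⟩ := exists_emb (q := q) K v hv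
  exact ⟨(g : _ ⧸ K.fixingSubgroup), hg⟩

end orbits

end Fermat.Agent.CFT.Bridge
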