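import Fermat.Agent.Minkowski.Inertia
import Fermat.Prelude.Def_GroupCohomology_ContinuousUnramified

/-!
# A number field is unramified outside a finite set of primes
-/

set_option autoImplicit false

namespace Fermat.Agent.CFT.Bridge

open Fermat.Agent.Frob Fermat.Agent.Minkowski Polynomial

/-- A nonzero algebraic integer is a unit at all places above primes outside of a finite set. -/
lemma exists_finset_notMem_nonunits {d : AlgebraicClosure ℚ} (hd : IsIntegral ℤ d) (hd0 : d ≠ 0) :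
    ∃ S : Finset Nat.Primes, ∀ q : Nat.Primes, q ∉ S →
      ∀ A : ValuationSubring (AlgebraicClosure ℚ), A.LiesOverPrime (q : ℕ) → d ∉ A.nonunits := by
  classical
  set f := minpoly ℤ d with hf
  set c := f.coeff 0 with hc
  have hc0 : c ≠ 0 := by
    intro h
    have h1 := minpoly.isIntegrallyClosed_eq_field_fractions' ℚ hd
    have h2 : (minpoly ℚ d).coeff 0 = 0 := by
      rw [h1, coeff_map, ← hf, ← hc, h, map_zero]
    exact minpoly.coeff_zero_ne_zero (Algebra.IsIntegral.isIntegral (R := ℚ) d) hd0 h2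
  let S₀ : Set Nat.Primes := {q | ((q : ℕ) : ℤ) ∣ c}
  have hfin : S₀.Finite := by
    have h1 : (Subtype.val '' S₀).Finite := by
      refine (Nat.primeFactors c.natAbs).finite_toSet.subset ?_
      rintro _ ⟨q, hq, rfl⟩
      rw [Finset.mem_coe, Nat.mem_primeFactors]
      exact ⟨q.2, Int.natCast_dvd.mp hq, Int.natAbs_ne_zero.mpr hc0⟩
    exact Set.Finite.of_finite_image h1 (Subtype.val_injective.injOn)
  refine ⟨hfin.toFinset, fun q hq A hA hdA => hq ?_⟩
  rw [Set.Finite.mem_toFinset]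
  change ((q : ℕ) : ℤ) ∣ c
  -- `c ∈ A.nonunits`
  have hA' : (d : AlgebraicClosure ℚ) ∈ A := A.nonunits_subset hdA
  have hint : ∀ n : ℤ, ((n : ℤ) : AlgebraicClosure ℚ) ∈ A := fun n => intCast_mem A n
  have h1 : (c : AlgebraicClosure ℚ) = - (d * (aeval d f.divX)) := by
    have h2 : aeval d f = 0 := minpoly.aeval ℤ d
    rw [← divX_mul_X_add f, map_add, map_mul, aeval_X, aeval_C] at h2
    rw [eq_neg_iff_add_eq_zero, mul_comm, add_comm]
    simpa using h2
  have h3 : aeval d f.divX ∈ A := by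
    rw [aeval_eq_sum_range]
    refine sum_mem fun i _ => ?_
    rw [zsmul_eq_mul]
    exact mul_mem (hint _) (pow_mem hA' _)
  have h4 : (c : AlgebraicClosure ℚ) ∈ A.nonunits := by
    rw [ValuationSubring.mem_nonunits_iff] at hdA ⊢
    rw [h1, Valuation.map_neg, map_mul]
    exact mul_lt_one_of_lt_of_le hdA ((ValuationSubring.valuation_le_one_iff A _).mpr h3)
  -- hence `q ∣ c`
  by_contra hqc
  have hcop : IsCoprime ((q : ℕ) : ℤ) c :=
    (Nat.prime_iff_prime_int.mp q.2).coprime_iff_not_dvd.mpr hqc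
  obtain ⟨a, b, hab⟩ := hcop
  have h5 : (1 : AlgebraicClosure ℚ) = (a : AlgebraicClosure ℚ) * ((q : ℕ) : AlgebraicClosure ℚ) +
      b * c := by
    have := congrArg (Int.cast : ℤ → AlgebraicClosure ℚ) hab
    push_cast at this
    exact this.symm
  have hqA : ((q : ℕ) : AlgebraicClosure ℚ) ∈ A.nonunits := hA
  rw [ValuationSubring.mem_nonunits_iff] at hqA h4
  have h6 : A.valuation ((a : AlgebraicClosure ℚ) * ((q : ℕ) : AlgebraicClosure ℚ)) < 1 := by
    rw [map_mul, mul_comm]
    exact mul_lt_one_of_lt_of_le hqA ((ValuationSubring.valuation_le_one_iff A _).mpr (hint a))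
  have h7 : A.valuation ((b : AlgebraicClosure ℚ) * c) < 1 := by
    rw [map_mul, mul_comm]
    exact mul_lt_one_of_lt_of_le h4 ((ValuationSubring.valuation_le_one_iff A _).mpr (hint b))
  have h8 := Valuation.map_add_lt A.valuation h6 h7
  rw [← h5, map_one] at h8
  exact lt_irrefl _ h8

/-- Every number field inside `ℚ̄` is unramified outside a finite set of primes. -/
theorem exists_isUnramifiedOutside (E : IntermediateField ℚ (AlgebraicClosure ℚ))
    [FiniteDimensional ℚ E] : ∃ S : Finset Nat.Primes, E.IsUnramifiedOutside S := by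
  classical
  obtain ⟨α₀, hα₀⟩ := Field.exists_primitive_element ℚ E
  -- an integral generator
  obtain ⟨α, hαint, hgen⟩ : ∃ α : E, IsIntegral ℤ (α : AlgebraicClosure ℚ) ∧
      ∀ σ : AlgebraicClosure ℚ ≃ₐ[ℚ] AlgebraicClosure ℚ, σ α = α → σ ∈ E.fixingSubgroup := by
    have halg : IsAlgebraic ℤ (α₀ : AlgebraicClosure ℚ) := by
      have : IsAlgebraic ℚ (α₀ : AlgebraicClosure ℚ) := Algebra.IsAlgebraic.isAlgebraic _
      exact (IsFractionRing.isAlgebraic_iff ℤ ℚ (AlgebraicClosure ℚ)).mpr this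
    obtain ⟨y, hy, hy2⟩ := halg.exists_integral_multiple
    refine ⟨(y : ℤ) • α₀, by simpa using hy2, fun σ hσ => ?_⟩
    have hy0 : (y : AlgebraicClosure ℚ) ≠ 0 := Int.cast_ne_zero.mpr hy
    have h1 : σ (α₀ : AlgebraicClosure ℚ) = α₀ := by
      have h2 : σ ((y : AlgebraicClosure ℚ) * (α₀ : AlgebraicClosure ℚ)) =
          (y : AlgebraicClosure ℚ) * (α₀ : AlgebraicClosure ℚ) := by
        simpa using hσ
      rw [map_mul, map_intCast] at h2
      exact mul_left_cancel₀ hy0 h2
    rw [IntermediateField.mem_fixingSubgroup_iff]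
    intro x hx
    have hx' : (⟨x, hx⟩ : E) ∈ IntermediateField.adjoin ℚ {α₀} := by rw [hα₀]; trivial
    have key : ∀ z : E, z ∈ IntermediateField.adjoin ℚ {α₀} → σ (z : AlgebraicClosure ℚ) = z := by
      intro z hz
      induction hz using IntermediateField.adjoin_induction with
      | mem z hz => rw [Set.mem_singleton_iff] at hz; rw [hz, h1]
      | algebraMap r => exact σ.commutes r
      | add a b _ _ ha hb =>
        rw [IntermediateField.coe_add, map_add, ha, hb]
      | inv a _ ha => rw [IntermediateField.coe_inv, map_inv₀, ha]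
      | mul a b _ _ ha hb => rw [IntermediateField.coe_mul, map_mul, ha, hb]
    exact key _ hx'
  -- the conjugates
  let R : Finset (AlgebraicClosure ℚ) :=
    ((minpoly ℤ (α : AlgebraicClosure ℚ)).aroots (AlgebraicClosure ℚ)).toFinset
  have hf0 : minpoly ℤ (α : AlgebraicClosure ℚ) ≠ 0 := minpoly.ne_zero hαint
  have hRmem : ∀ r, r ∈ R ↔ aeval r (minpoly ℤ (α : AlgebraicClosure ℚ)) = 0 := by
    intro r
    rw [Multiset.mem_toFinset, mem_aroots]
    exact and_iff_right hf0
  have hRint : ∀ r ∈ R, IsIntegral ℤ r := fun r hr =>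
    ⟨_, minpoly.monic hαint, by rw [← aeval_def]; exact (hRmem r).mp hr⟩
  have hpair : ∀ x : R × R, x.1 ≠ x.2 → ∃ S : Finset Nat.Primes, ∀ q : Nat.Primes, q ∉ S →
      ∀ A : ValuationSubring (AlgebraicClosure ℚ), A.LiesOverPrime (q : ℕ) →
        ((x.1 : AlgebraicClosure ℚ) - x.2) ∉ A.nonunits := fun x hx =>
    exists_finset_notMem_nonunits ((hRint _ x.1.2).sub (hRint _ x.2.2))
      (sub_ne_zero.mpr fun h => hx (Subtype.ext h))
  choose! T hT using hpair
  refine ⟨Finset.univ.biUnion T, inferInstance, fun q hq A hA σ hσ => hgen σ ?_⟩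
  have hq' : ∀ x, q ∉ T x := fun x hx => hq (Finset.mem_biUnion.mpr ⟨x, Finset.mem_univ _, hx⟩)
  have hαA : (α : AlgebraicClosure ℚ) ∈ A := mem_of_mem_Zbar A ⟨α, hαint⟩
  have h1 := (sub_mem_nonunits_of_mem_inertia hσ hαA).2
  by_contra hne
  have hαR : (α : AlgebraicClosure ℚ) ∈ R := (hRmem _).mpr (minpoly.aeval ℤ _)
  have hσR : σ (α : AlgebraicClosure ℚ) ∈ R := by
    rw [hRmem]
    have h2 := congrArg σ ((hRmem _).mp hαR)
    rw [map_zero] at h2
    rw [← h2]
    exact (aeval_algHom_apply (σ.toAlgHom.restrictScalars ℤ) _ _)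
  exact hT (⟨_, hσR⟩, ⟨_, hαR⟩) (fun h => hne (congrArg Subtype.val h)) q (hq' _) A hA h1

end Fermat.Agent.CFT.Bridge
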