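import Fermat.Agent.CFT.Bridge.Orbits
import Fermat.Agent.PT.Euler

/-!
# Change of representative of a place

`exists_equiv_resW` : if `(q, g)` and `(q, g')` define the same place of `K` there is an isomorphism
`e` between the local cohomology groups with `e (resW K q g x) = resW K q g' x`.
-/

set_option autoImplicit false

open Fermat.Agent.PT Fermat.Agent.CFT.Kum Fermat.Agent.CFT.Kum.KumSet
open IsDedekindDomain NumberField

namespace Fermat.Agent.CFT.Bridge

section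

variable (K : IntermediateField ℚ (AlgebraicClosure ℚ)) {q : ℕ} [hq : Fact q.Prime]

/-- `conjW` as an isomorphism. -/
noncomputable def conjWEquiv (g : AlgebraicClosure ℚ ≃ₐ[ℚ] AlgebraicClosure ℚ)
    (σ : PadicAlgCl q ≃ₐ[ℚ_[q]] PadicAlgCl q)
    (u : AlgebraicClosure ℚ ≃ₐ[ℚ] AlgebraicClosure ℚ) (hu : u ∈ K.fixingSubgroup) :
    (locField (emb K q (localGaloisToGlobal q σ * g * u))).fixingSubgroup ≃*
      (locField (emb K q g)).fixingSubgroup where
  __ := conjW K g σ u hu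
  invFun h := ⟨σ * h * σ⁻¹, by
    have h1 := (mem_fixing_locField_emb_iff K q).mp h.2
    rw [mem_fixing_locField_emb_iff]
    have h2 := K.fixingSubgroup.mul_mem (K.fixingSubgroup.mul_mem (K.fixingSubgroup.inv_mem hu) h1) hu
    convert h2 using 1
    rw [map_mul, map_mul, map_inv]
    group⟩
  left_inv h := by
    apply Subtype.ext
    change σ * (σ⁻¹ * h * σ) * σ⁻¹ = (h : PadicAlgCl q ≃ₐ[ℚ_[q]] PadicAlgCl q)
    group
  right_inv h := by
    apply Subtype.ext
    change σ⁻¹ * (σ * h * σ⁻¹) * σ = (h : PadicAlgCl q ≃ₐ[ℚ_[q]] PadicAlgCl q)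
    group

lemma compat_conjWEquiv_symm (g : AlgebraicClosure ℚ ≃ₐ[ℚ] AlgebraicClosure ℚ)
    (σ : PadicAlgCl q ≃ₐ[ℚ_[q]] PadicAlgCl q)
    (u : AlgebraicClosure ℚ ≃ₐ[ℚ] AlgebraicClosure ℚ) (hu : u ∈ K.fixingSubgroup) :
    (lev (locField (emb K q (localGaloisToGlobal q σ * g * u)))).Compat
      (conjWEquiv K g σ u hu).symm.toMonoidHom (lev (locField (emb K q g))) := by
  rintro W ⟨V, hV, hVW⟩
  obtain ⟨V', hV', hVV', hn⟩ := LevelSys.exists_normal hV
  refine ⟨V', hV', fun h hh => ?_⟩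
  rw [Subgroup.mem_comap] at hh ⊢
  apply hVW
  rw [Subgroup.mem_comap]
  apply hVV'
  exact hn.conj_mem _ hh σ

variable {p : ℕ} [hp : Fact p.Prime]

theorem exists_equiv_resW_mul (g : AlgebraicClosure ℚ ≃ₐ[ℚ] AlgebraicClosure ℚ)
    (σ : PadicAlgCl q ≃ₐ[ℚ_[q]] PadicAlgCl q)
    (u : AlgebraicClosure ℚ ≃ₐ[ℚ] AlgebraicClosure ℚ) (hu : u ∈ K.fixingSubgroup) :
    ∃ e : H2 (lev (locField (emb K q g))) (triv p (locField (emb K q g)).fixingSubgroup) ≃ₗ[ZMod p]
      H2 (lev (locField (emb K q (localGaloisToGlobal q σ * g * u))))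
        (triv p (locField (emb K q (localGaloisToGlobal q σ * g * u))).fixingSubgroup),
      ∀ x : H2 (lev K) (triv p K.fixingSubgroup), e (resW K q g x) =
        resW K q (localGaloisToGlobal q σ * g * u) x := by
  refine ⟨H2equiv (conjWEquiv K g σ u hu) (compat_conjW K g σ u hu)
    (compat_conjWEquiv_symm K g σ u hu) (fun h m => rfl), fun x => ?_⟩
  rw [← resW_mul K g σ u hu x]
  rfl

theorem exists_equiv_resW [FiniteDimensional ℚ K]
    {g g' : AlgebraicClosure ℚ ≃ₐ[ℚ] AlgebraicClosure ℚ}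
    (h : placeOf (emb K q g) = placeOf (emb K q g')) :
    ∃ e : H2 (lev (locField (emb K q g))) (triv p (locField (emb K q g)).fixingSubgroup) ≃ₗ[ZMod p]
      H2 (lev (locField (emb K q g'))) (triv p (locField (emb K q g')).fixingSubgroup),
      ∀ x : H2 (lev K) (triv p K.fixingSubgroup), e (resW K q g x) = resW K q g' x := by
  obtain ⟨σ, u, hu, rfl⟩ := (placeOf_emb_eq_iff K g g').mp h
  exact exists_equiv_resW_mul K g σ u hu

end

section

variable {K : IntermediateField ℚ (AlgebraicClosure ℚ)} [FiniteDimensional ℚ K]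
  {p : ℕ} [hp : Fact p.Prime]

/-- The residue characteristic of a place is unique. -/
lemma prime_unique {v : HeightOneSpectrum (𝓞 K)} {q q' : ℕ} (hq : q.Prime) (hq' : q'.Prime)
    (h : (q : 𝓞 K) ∈ v.asIdeal) (h' : (q' : 𝓞 K) ∈ v.asIdeal) : q = q' := by
  by_contra hne
  have hcop : IsCoprime (q : ℤ) (q' : ℤ) :=
    Nat.isCoprime_iff_coprime.mpr ((Nat.coprime_primes hq hq').mpr hne)
  obtain ⟨a, b, hab⟩ := hcop
  have h1 : (1 : 𝓞 K) = (a : 𝓞 K) * (q : 𝓞 K) + (b : 𝓞 K) * (q' : 𝓞 K) := by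
    have := congrArg (Int.cast : ℤ → 𝓞 K) hab
    push_cast at this
    exact this.symm
  have h2 : (1 : 𝓞 K) ∈ v.asIdeal := by
    rw [h1]
    exact v.asIdeal.add_mem (v.asIdeal.mul_mem_left _ h) (v.asIdeal.mul_mem_left _ h')
  exact v.isPrime.ne_top ((Ideal.eq_top_iff_one _).mpr h2)

lemma PlaceRep.q_mem {v : HeightOneSpectrum (𝓞 K)} (P : PlaceRep K v) :
    (P.q : 𝓞 K) ∈ v.asIdeal := by
  obtain ⟨q, hq, g, rfl⟩ := P
  exact q_mem_placeOf _

/-- The local cohomology group attached to a representation of a place. -/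
noncomputable abbrev PlaceRep.H2loc (p : ℕ) [Fact p.Prime] {v : HeightOneSpectrum (𝓞 K)}
    (P : PlaceRep K v) : Type :=
  letI := P.hq; H2 (lev P.lf) (triv p P.lf.fixingSubgroup)

/-- Restriction to a represented place. -/
noncomputable def PlaceRep.res (p : ℕ) [Fact p.Prime] {v : HeightOneSpectrum (𝓞 K)}
    (P : PlaceRep K v) : H2 (lev K) (triv p K.fixingSubgroup) →ₗ[ZMod p] P.H2loc p :=
  letI := P.hq; resW K P.q P.g

/-- Change of the representation of a place. -/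
theorem PlaceRep.exists_equiv {v : HeightOneSpectrum (𝓞 K)} (P P' : PlaceRep K v) :
    ∃ e : P.H2loc p ≃ₗ[ZMod p] P'.H2loc p, ∀ x, e (P.res p x) = P'.res p x := by
  have hqq : P.q = P'.q := prime_unique P.hq.out P'.hq.out P.q_mem P'.q_mem
  obtain ⟨q, hq, g, h⟩ := P
  obtain ⟨q', hq', g', h'⟩ := P'
  obtain rfl : q = q' := hqq
  exact exists_equiv_resW K (h.trans h'.symm)

lemma PlaceRep.res_eq_zero_iff {v : HeightOneSpectrum (𝓞 K)} (P P' : PlaceRep K v)
    (x : H2 (lev K) (triv p K.fixingSubgroup)) : P.res p x = 0 ↔ P'.res p x = 0 := by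
  obtain ⟨e, he⟩ := PlaceRep.exists_equiv (p := p) P P'
  rw [← he, LinearEquiv.map_eq_zero_iff]

end

end Fermat.Agent.CFT.Bridge
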