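import Fermat.Agent.CFT.Bridge.Orbits
import Fermat.Agent.CFT.Bridge.Ram
import Fermat.Agent.CFT.Kum.Unram

/-!
# Unramified classes and finiteness of the support

* `resW_eq_zero_of_unramified` : a class of `H²(G_K, ZMod p)` which is represented by a cocycle
  constant modulo a level `W₀` containing the inertia group of the place `(q, g)` has trivial
  restriction;
* `exists_finset_resW_eq_zero` : every class of `H²(G_K, ZMod p)` has trivial restriction at all
  places above the primes outside of a finite set.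
-/

set_option autoImplicit false

open Fermat.Agent.PT Fermat.Agent.CFT.Kum Fermat.Agent.CFT.Kum.KumSet
open IsDedekindDomain NumberField
open scoped Pointwise

namespace Fermat.Agent.CFT.Bridge

section

variable (K : IntermediateField ℚ (AlgebraicClosure ℚ)) (q : ℕ) [hq : Fact q.Prime]
  (g : AlgebraicClosure ℚ ≃ₐ[ℚ] AlgebraicClosure ℚ)

/-- The place of `ℚ̄` attached to `(q, g)`. -/
noncomputable def placeW : ValuationSubring (AlgebraicClosure ℚ) := g⁻¹ • padicPlace q

lemma placeW_liesOverPrime : (placeW q g).LiesOverPrime q :=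
  Fermat.Agent.FrobDensity.liesOverPrime_smul (padicPlace_liesOverPrime q)

lemma mem_decompositionSubgroup_placeW {σ : AlgebraicClosure ℚ ≃ₐ[ℚ] AlgebraicClosure ℚ} :
    σ ∈ (placeW q g).decompositionSubgroup ℚ ↔ g * σ * g⁻¹ ∈ (localGaloisToGlobal q).range := by
  rw [range_localGaloisToGlobal]
  change σ • (g⁻¹ • padicPlace q) = g⁻¹ • padicPlace q ↔ (g * σ * g⁻¹) • padicPlace q = padicPlace q
  rw [eq_inv_smul_iff, smul_smul, smul_smul, mul_assoc]

/-- The composite of `jw` with the inclusion. -/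
noncomputable def jwTop : (locField (emb K q g)).fixingSubgroup →*
    (AlgebraicClosure ℚ ≃ₐ[ℚ] AlgebraicClosure ℚ) := K.fixingSubgroup.subtype.comp (jw K q g)

lemma jwTop_apply (d : (locField (emb K q g)).fixingSubgroup) :
    jwTop K q g d = g⁻¹ * localGaloisToGlobal q d * g := rfl

lemma compat_jwTop : (galLevels ℚ (AlgebraicClosure ℚ)).Compat (jwTop K q g)
    (lev (locField (emb K q g))) := by
  intro W hW
  exact compat_jw K q g _ (LevelSys.comap_mem_comap _ hW)

lemma jwTop_mem_decomposition (d : (locField (emb K q g)).fixingSubgroup) :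
    jwTop K q g d ∈ (placeW q g).decompositionSubgroup ℚ := by
  rw [mem_decompositionSubgroup_placeW, jwTop_apply]
  exact ⟨d, by group⟩

lemma mem_range_jwTop {σ : AlgebraicClosure ℚ ≃ₐ[ℚ] AlgebraicClosure ℚ}
    (h1 : σ ∈ (placeW q g).decompositionSubgroup ℚ) (h2 : σ ∈ K.fixingSubgroup) :
    σ ∈ (jwTop K q g).range := by
  rw [mem_decompositionSubgroup_placeW] at h1
  obtain ⟨h, hh⟩ := h1
  have h3 : g⁻¹ * localGaloisToGlobal q h * g = σ := by
    rw [hh]; group
  refine ⟨⟨h, ?_⟩, ?_⟩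
  · rw [mem_fixing_locField_emb_iff, h3]
    exact h2
  · rw [jwTop_apply]
    exact h3

lemma relIndex_range_jwTop [FiniteDimensional ℚ K] :
    (jwTop K q g).range.relIndex ((placeW q g).decompositionSubgroup ℚ) ≠ 0 := by
  have h1 : K.fixingSubgroup ⊓ (placeW q g).decompositionSubgroup ℚ ≤ (jwTop K q g).range :=
    fun σ hσ => mem_range_jwTop K q g hσ.2 hσ.1
  have h2 : (K.fixingSubgroup ⊓ (placeW q g).decompositionSubgroup ℚ).relIndex
      ((placeW q g).decompositionSubgroup ℚ) ≠ 0 := by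
    rw [Subgroup.inf_relIndex_right]
    have h3 : K.fixingSubgroup.index ≠ 0 := by
      rw [← IntermediateField.finrank_eq_fixingSubgroup_index]
      exact Module.finrank_pos.ne'
    exact fun h => h3 (Subgroup.index_eq_zero_of_relIndex_eq_zero h)
  intro h3
  apply h2
  have h4 := Subgroup.relIndex_dvd_of_le_left ((placeW q g).decompositionSubgroup ℚ) h1
  rw [h3, zero_dvd_iff] at h4
  exact h4

variable {p : ℕ} [hp : Fact p.Prime]

/-- **Unramified classes are locally trivial.** -/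
theorem resW_eq_zero_of_unramified [FiniteDimensional ℚ K]
    (W₀ : Subgroup (AlgebraicClosure ℚ ≃ₐ[ℚ] AlgebraicClosure ℚ)) [W₀.Normal]
    (hW₀ : W₀ ∈ galLevels ℚ (AlgebraicClosure ℚ))
    (hI : (placeW q g).inertiaSubgroupIn ℚ ≤ W₀)
    (c : ↥(Z2 (lev K) (triv p K.fixingSubgroup)))
    (hc : ∀ x y u v : K.fixingSubgroup, (u : AlgebraicClosure ℚ ≃ₐ[ℚ] AlgebraicClosure ℚ) ∈ W₀ →
      (v : AlgebraicClosure ℚ ≃ₐ[ℚ] AlgebraicClosure ℚ) ∈ W₀ → c.1 (x * u, y * v) = c.1 (x, y)) :
    resW K q g (H2mk (lev K) (triv p K.fixingSubgroup) c) = 0 := by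
  rw [resW, resT_mk, H2mk_triv_eq_zero_iff]
  refine isCob_of_unramified hq.out (placeW_liesOverPrime q g) (jwTop K q g)
    (compat_jwTop K q g) (jwTop_mem_decomposition K q g) (relIndex_range_jwTop K q g) W₀ hW₀ hI
    ?_ ?_
  · intro x y u v hu hv
    change c.1 (jw K q g (x * u), jw K q g (y * v)) = c.1 (jw K q g x, jw K q g y)
    rw [map_mul, map_mul]
    exact hc _ _ _ _ hu hv
  · intro x y z
    have h1 := c.2.2 (jw K q g x) (jw K q g y) (jw K q g z)
    rw [Representation.trivial_apply] at h1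
    change c.1 (jw K q g (x * y), jw K q g z) + c.1 (jw K q g x, jw K q g y) =
      c.1 (jw K q g y, jw K q g z) + c.1 (jw K q g x, jw K q g (y * z))
    rw [map_mul, map_mul]
    exact h1

end

section support

variable {p : ℕ} [hp : Fact p.Prime] (K : IntermediateField ℚ (AlgebraicClosure ℚ))
  [FiniteDimensional ℚ K]

/-- **Finiteness of the support.** -/
theorem exists_finset_resW_eq_zero (x : H2 (lev K) (triv p K.fixingSubgroup)) :
    ∃ S : Finset Nat.Primes, ∀ (q : ℕ) [hq : Fact q.Prime], (⟨q, hq.out⟩ : Nat.Primes) ∉ S →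
      ∀ g : AlgebraicClosure ℚ ≃ₐ[ℚ] AlgebraicClosure ℚ, resW K q g x = 0 := by
  obtain ⟨c, rfl⟩ := H2mk_surjective x
  obtain ⟨W, hW, hWc⟩ := c.2.1
  obtain ⟨V, hV, hVW⟩ := LevelSys.mem_comap.mp hW
  obtain ⟨W₀, hW₀, hW₀V, hn⟩ := LevelSys.exists_normal hV
  obtain ⟨E, hE, hEW⟩ := mem_galLevels.mp hW₀
  obtain ⟨S, hS⟩ := exists_isUnramifiedOutside E
  refine ⟨S, fun q hq hqS g => ?_⟩
  have hI : (placeW q g).inertiaSubgroupIn ℚ ≤ W₀ :=
    (hS.2 ⟨q, hq.out⟩ hqS _ (placeW_liesOverPrime q g)).trans hEW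
  refine resW_eq_zero_of_unramified K q g W₀ hW₀ hI c ?_
  intro x y u v hu hv
  exact hWc x y u v (hVW (hW₀V hu)) (hVW (hW₀V hv))

/-- For all but finitely many places `v` of `K`, every representative of `v` gives zero. -/
theorem finite_support (x : H2 (lev K) (triv p K.fixingSubgroup)) :
    {v : HeightOneSpectrum (𝓞 K) | ∃ (q : ℕ) (_ : Fact q.Prime)
      (g : AlgebraicClosure ℚ ≃ₐ[ℚ] AlgebraicClosure ℚ), placeOf (emb K q g) = v ∧
        resW K q g x ≠ 0}.Finite := by
  obtain ⟨S, hS⟩ := exists_finset_resW_eq_zero K x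
  have hfin : ∀ q : Nat.Primes, {v : HeightOneSpectrum (𝓞 K) | ((q : ℕ) : 𝓞 K) ∈ v.asIdeal}.Finite := by
    intro q
    have h1 : Ideal.span {((q : ℕ) : 𝓞 K)} ≠ ⊥ := by
      rw [Ne, Ideal.span_singleton_eq_bot]
      exact Nat.cast_ne_zero.mpr q.2.ne_zero
    refine (Ideal.finite_factors h1).subset ?_
    intro v hv
    rw [Set.mem_ofPred_eq, Ideal.dvd_iff_le, Ideal.span_singleton_le_iff_mem]
    exact hv
  refine (Set.Finite.biUnion S.finite_toSet (fun q _ => hfin q)).subset ?_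
  rintro v ⟨q, hq, g, rfl, hne⟩
  have hqS : (⟨q, hq.out⟩ : Nat.Primes) ∈ S := by
    by_contra hcon
    exact hne (hS q hcon g)
  rw [Set.mem_iUnion₂]
  exact ⟨⟨q, hq.out⟩, hqS, q_mem_placeOf _⟩

end support

end Fermat.Agent.CFT.Bridge
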